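import Mathlib

/-!
# First case of Fermat's Last Theorem by the criterion of Sophie Germain

Generic criterion `caseOne_of_sophieGermain` and the instances `5, 7, 11, 13`.
-/

set_option autoImplicit false

namespace Fermat.Agent.Kummer

open Finset

/-- The cofactor `S(y,z)` with `(y + z) * S = y ^ p + z ^ p`. -/
lemma sg_factor (p : ℕ) (hp : p.Prime) (hodd : Odd p) (x y z : ℤ)
    (hyz : IsCoprime y z) (hpx : ¬ (p : ℤ) ∣ x) (hx : x ≠ 0)
    (h : x ^ p + y ^ p + z ^ p = 0) :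
    ∃ a t : ℤ, y + z = a ^ p ∧
      (∑ i ∈ range p, y ^ i * (-z) ^ (p - 1 - i)) = t ^ p := by
  have hmul : (∑ i ∈ range p, y ^ i * (-z) ^ (p - 1 - i)) * (y + z) = (-x) ^ p := by
    have := geom_sum₂_mul y (-z) p
    rw [sub_neg_eq_add, hodd.neg_pow] at this
    rw [this, hodd.neg_pow]; linarith
  have hcop : IsCoprime (∑ i ∈ range p, y ^ i * (-z) ^ (p - 1 - i)) (y + z) := by
    refine isCoprime_of_prime_dvd ?_ ?_
    · rintro ⟨-, h0⟩
      rw [h0, mul_zero, eq_comm] at hmul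
      exact hx (neg_eq_zero.mp (pow_eq_zero_iff hp.ne_zero |>.mp hmul))
    · intro r hr hrS hrd
      have hxr : r ∣ x := by
        have h1 : r ∣ (-x) ^ p := hmul ▸ (Dvd.dvd.mul_left hrd _)
        exact (dvd_neg.mp (hr.dvd_of_dvd_pow h1))
      have hd' : r ∣ y - (-z) := by rwa [sub_neg_eq_add]
      have hry : ¬ r ∣ y := by
        intro hry
        have hrz : r ∣ z := by
          have := dvd_sub hrd hry
          simpa using this
        exact hr.not_isUnit (hyz.isUnit_of_dvd' hry hrz)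
      have hrp : ¬ r ∣ (p : ℤ) := by
        intro hrp
        have hass : Associated r (p : ℤ) :=
          hr.associated_of_dvd (Nat.prime_iff_prime_int.mp hp) hrp
        exact hpx (hass.symm.dvd.trans hxr)
      exact not_dvd_geom_sum₂ hr hd' hry hrp hrS
  obtain ⟨⟨t, ht⟩, ⟨a, ha⟩⟩ := Int.eq_pow_of_mul_eq_pow_odd hcop hodd hmul
  exact ⟨a, t, ha, ht⟩

/-- Auxiliary: the main step when the auxiliary prime divides `x`. -/
lemma sg_aux (p q : ℕ) (hp : p.Prime) (hodd : Odd p)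
    (H1 : ∀ a b c : ZMod q, a ^ p + b ^ p + c ^ p = 0 → a = 0 ∨ b = 0 ∨ c = 0)
    (H2 : ∀ a : ZMod q, a ^ p ≠ (p : ZMod q)) [Fact q.Prime]
    (x y z : ℤ) (hxy : IsCoprime x y) (hyz : IsCoprime y z) (hxz : IsCoprime x z)
    (hpx : ¬ (p : ℤ) ∣ x) (hpy : ¬ (p : ℤ) ∣ y) (hpz : ¬ (p : ℤ) ∣ z)
    (h : x ^ p + y ^ p + z ^ p = 0) (hqx : (x : ZMod q) = 0) : False := by
  have hq : q.Prime := Fact.out
  have hx0 : x ≠ 0 := by rintro rfl; exact hpx (dvd_zero _)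
  have hy0 : y ≠ 0 := by rintro rfl; exact hpy (dvd_zero _)
  have hz0 : z ≠ 0 := by rintro rfl; exact hpz (dvd_zero _)
  obtain ⟨a, t, ha, ht⟩ := sg_factor p hp hodd x y z hyz hpx hx0 h
  obtain ⟨b, -, hb, -⟩ := sg_factor p hp hodd y z x hxz.symm hpy hy0 (by linarith)
  obtain ⟨c, -, hc, -⟩ := sg_factor p hp hodd z x y hxy hpz hz0 (by linarith)
  -- the auxiliary prime does not divide `y`, `z`
  have hqi : Prime (q : ℤ) := Nat.prime_iff_prime_int.mp hq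
  have hqx' : (q : ℤ) ∣ x := (ZMod.intCast_zmod_eq_zero_iff_dvd x q).mp hqx
  have hqy : (y : ZMod q) ≠ 0 := by
    intro h0
    have := (ZMod.intCast_zmod_eq_zero_iff_dvd y q).mp h0
    exact hqi.not_isUnit (hxy.isUnit_of_dvd' hqx' this)
  have hqz : (z : ZMod q) ≠ 0 := by
    intro h0
    have := (ZMod.intCast_zmod_eq_zero_iff_dvd z q).mp h0
    exact hqi.not_isUnit (hxz.isUnit_of_dvd' hqx' this)
  have hp0 : p ≠ 0 := hp.ne_zero
  have ha' : (y : ZMod q) + z = (a : ZMod q) ^ p := by exact_mod_cast congrArg (Int.cast : ℤ → ZMod q) ha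
  have hb' : (z : ZMod q) + x = (b : ZMod q) ^ p := by exact_mod_cast congrArg (Int.cast : ℤ → ZMod q) hb
  have hc' : (x : ZMod q) + y = (c : ZMod q) ^ p := by exact_mod_cast congrArg (Int.cast : ℤ → ZMod q) hc
  have hsum : (-(a : ZMod q)) ^ p + (b : ZMod q) ^ p + (c : ZMod q) ^ p = 0 := by
    rw [hodd.neg_pow, ← ha', ← hb', ← hc', hqx]; ring
  rcases H1 _ _ _ hsum with h0 | h0 | h0
  · -- `q ∣ a`
    have ha0 : (a : ZMod q) = 0 := neg_eq_zero.mp h0
    rw [ha0, zero_pow hp0] at ha'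
    have hzy : -(z : ZMod q) = y := by rw [← sub_eq_zero]; linear_combination -ha'
    have ht' : (p : ZMod q) * (y : ZMod q) ^ (p - 1) = (t : ZMod q) ^ p := by
      have h1 := congrArg (Int.cast : ℤ → ZMod q) ht
      push_cast at h1
      rw [hzy, geom_sum₂_self] at h1
      exact h1
    rw [hqx, zero_add] at hc'
    have hc0 : (c : ZMod q) ≠ 0 := by
      intro h0; rw [h0, zero_pow hp0] at hc'; exact hqy hc'
    refine H2 ((t : ZMod q) / (c : ZMod q) ^ (p - 1)) ?_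
    rw [div_pow, ← ht', hc', ← pow_mul, ← pow_mul, mul_comm p (p - 1)]
    field_simp
  · rw [h0, zero_pow hp0, hqx, add_zero] at hb'
    exact hqz hb'
  · rw [h0, zero_pow hp0, hqx, zero_add] at hc'
    exact hqy hc'

/-- Sophie Germain: the first case, pairwise coprime version. -/
lemma sg_coprime (p q : ℕ) (hp : p.Prime) (hodd : Odd p)
    (H1 : ∀ a b c : ZMod q, a ^ p + b ^ p + c ^ p = 0 → a = 0 ∨ b = 0 ∨ c = 0)
    (H2 : ∀ a : ZMod q, a ^ p ≠ (p : ZMod q)) [Fact q.Prime]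
    (x y z : ℤ) (hxy : IsCoprime x y) (hyz : IsCoprime y z) (hxz : IsCoprime x z)
    (h : x ^ p + y ^ p + z ^ p = 0) : (p : ℤ) ∣ x * y * z := by
  by_contra hcon
  have hpi : Prime (p : ℤ) := Nat.prime_iff_prime_int.mp hp
  have hpx : ¬ (p : ℤ) ∣ x := fun h0 => hcon ((h0.mul_right _).mul_right _)
  have hpy : ¬ (p : ℤ) ∣ y := fun h0 => hcon ((h0.mul_left _).mul_right _)
  have hpz : ¬ (p : ℤ) ∣ z := fun h0 => hcon (h0.mul_left _)
  have hq : (x : ZMod q) ^ p + (y : ZMod q) ^ p + (z : ZMod q) ^ p = 0 := by exact_mod_cast congrArg (Int.cast : ℤ → ZMod q) h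
  rcases H1 _ _ _ hq with h0 | h0 | h0
  · exact sg_aux p q hp hodd H1 H2 x y z hxy hyz hxz hpx hpy hpz h h0
  · exact sg_aux p q hp hodd H1 H2 y z x hyz hxz.symm hxy.symm hpy hpz hpx (by linarith) h0
  · exact sg_aux p q hp hodd H1 H2 z x y hxz.symm hxy hyz.symm hpz hpx hpy (by linarith) h0

/-- Sophie Germain: the first case of Fermat's Last Theorem for the exponent `p`, given an
auxiliary prime `q`. No coprimality assumption. -/
theorem caseOne_of_sophieGermain (p q : ℕ) (hp : p.Prime) (hodd : Odd p)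
    (H1 : ∀ a b c : ZMod q, a ^ p + b ^ p + c ^ p = 0 → a = 0 ∨ b = 0 ∨ c = 0)
    (H2 : ∀ a : ZMod q, a ^ p ≠ (p : ZMod q)) [Fact q.Prime]
    (x y z : ℤ) (h : x ^ p + y ^ p + z ^ p = 0) : (p : ℤ) ∣ x * y * z := by
  by_contra hcon
  have hpi : Prime (p : ℤ) := Nat.prime_iff_prime_int.mp hp
  have hpx : ¬ (p : ℤ) ∣ x := fun h0 => hcon ((h0.mul_right _).mul_right _)
  have hpy : ¬ (p : ℤ) ∣ y := fun h0 => hcon ((h0.mul_left _).mul_right _)
  have hx0 : x ≠ 0 := by rintro rfl; exact hpx (dvd_zero _)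
  obtain ⟨d, x', y', hd0, hxy', rfl, rfl⟩ :
      ∃ d x' y' : ℤ, d ≠ 0 ∧ IsCoprime x' y' ∧ x = d * x' ∧ y = d * y' := by
    obtain ⟨x', hx'⟩ := Int.gcd_dvd_left x y
    obtain ⟨y', hy'⟩ := Int.gcd_dvd_right x y
    have hg : 0 < Int.gcd x y := Int.gcd_pos_of_ne_zero_left _ hx0
    refine ⟨(Int.gcd x y : ℤ), x / Int.gcd x y, y / Int.gcd x y, ?_, ?_, ?_, ?_⟩
    · exact_mod_cast hg.ne'
    · exact Int.isCoprime_iff_gcd_eq_one.mpr (Int.gcd_ediv_gcd_ediv_gcd hg)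
    · exact (Int.mul_ediv_cancel' (Int.gcd_dvd_left x y)).symm
    · exact (Int.mul_ediv_cancel' (Int.gcd_dvd_right x y)).symm
  have hdz : d ∣ z := by
    have h1 : d ^ p ∣ z ^ p := by
      refine ⟨-(x' ^ p + y' ^ p), ?_⟩
      have : z ^ p = -((d * x') ^ p + (d * y') ^ p) := by linarith
      rw [this, mul_pow, mul_pow]; ring
    exact (Int.pow_dvd_pow_iff hp.ne_zero).mp h1
  obtain ⟨z', rfl⟩ := hdz
  have h' : x' ^ p + y' ^ p + z' ^ p = 0 := by
    have h1 : d ^ p * (x' ^ p + y' ^ p + z' ^ p) = 0 := by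
      rw [← h, mul_pow, mul_pow, mul_pow]; ring
    exact (mul_eq_zero.mp h1).resolve_left (pow_ne_zero _ hd0)
  -- coprimality of the other pairs
  have cop : ∀ u v w : ℤ, IsCoprime u v → u ^ p + v ^ p + w ^ p = 0 → IsCoprime v w := by
    intro u v w huv huvw
    have h1 : IsCoprime (v ^ p) (w ^ p) := by
      have h2 : w ^ p = (-(u ^ p)) + v ^ p * (-1) := by linarith
      rw [h2]
      refine (IsCoprime.add_mul_left_right ?_ (-1))
      exact (huv.symm.pow).neg_right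
    exact (IsCoprime.pow_iff hp.pos hp.pos).mp h1
  have hyz' : IsCoprime y' z' := cop x' y' z' hxy' h'
  have hxz' : IsCoprime x' z' := cop y' x' z' hxy'.symm (by linarith)
  have hfin := sg_coprime p q hp hodd H1 H2 x' y' z' hxy' hyz' hxz' h'
  apply hcon
  have : d * x' * (d * y') * (d * z') = d ^ 3 * (x' * y' * z') := by ring
  rw [this]
  exact hfin.mul_left _

section instances

/-- Reduce the Sophie Germain condition to a table of `p`-th powers. -/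
lemma sg_table {q p : ℕ} (S : Finset (ZMod q))
    (hpow : ∀ a : ZMod q, a = 0 ∨ a ^ p ∈ S)
    (hS : ∀ a ∈ S, ∀ b ∈ S, ∀ c ∈ S, a + b + c ≠ 0)
    (a b c : ZMod q) (h : a ^ p + b ^ p + c ^ p = 0) : a = 0 ∨ b = 0 ∨ c = 0 := by
  rcases hpow a with ha | ha
  · exact Or.inl ha
  rcases hpow b with hb | hb
  · exact Or.inr (Or.inl hb)
  rcases hpow c with hc | hc
  · exact Or.inr (Or.inr hc)
  exact absurd h (hS _ ha _ hb _ hc)

set_option maxRecDepth 100000 in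
theorem caseOne_5 (x y z : ℤ) (h : x ^ 5 + y ^ 5 + z ^ 5 = 0) : (5 : ℤ) ∣ x * y * z := by
  have h1 : ∀ a : ZMod 11, a = 0 ∨ a ^ 5 ∈ ({1, 10} : Finset (ZMod 11)) := by decide
  have h2 : ∀ a ∈ ({1, 10} : Finset (ZMod 11)), ∀ b ∈ ({1, 10} : Finset (ZMod 11)),
    ∀ c ∈ ({1, 10} : Finset (ZMod 11)), a + b + c ≠ 0 := by decide
  have h3 : ∀ a : ZMod 11, a ^ 5 ≠ ((5 : ℕ) : ZMod 11) := by decide
  have : Fact (Nat.Prime 11) := ⟨by norm_num⟩
  exact caseOne_of_sophieGermain 5 11 (by norm_num) (by decide) (sg_table _ h1 h2) h3 x y z h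

set_option maxRecDepth 100000 in
theorem caseOne_7 (x y z : ℤ) (h : x ^ 7 + y ^ 7 + z ^ 7 = 0) : (7 : ℤ) ∣ x * y * z := by
  have h1 : ∀ a : ZMod 29, a = 0 ∨ a ^ 7 ∈ ({1, 28, 12, 17} : Finset (ZMod 29)) := by decide
  have h2 : ∀ a ∈ ({1, 28, 12, 17} : Finset (ZMod 29)),
    ∀ b ∈ ({1, 28, 12, 17} : Finset (ZMod 29)),
    ∀ c ∈ ({1, 28, 12, 17} : Finset (ZMod 29)), a + b + c ≠ 0 := by decide
  have h3 : ∀ a : ZMod 29, a ^ 7 ≠ ((7 : ℕ) : ZMod 29) := by decide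
  have : Fact (Nat.Prime 29) := ⟨by norm_num⟩
  exact caseOne_of_sophieGermain 7 29 (by norm_num) (by decide) (sg_table _ h1 h2) h3 x y z h

set_option maxRecDepth 100000 in
theorem caseOne_11 (x y z : ℤ) (h : x ^ 11 + y ^ 11 + z ^ 11 = 0) : (11 : ℤ) ∣ x * y * z := by
  have h1 : ∀ a : ZMod 23, a = 0 ∨ a ^ 11 ∈ ({1, 22} : Finset (ZMod 23)) := by decide
  have h2 : ∀ a ∈ ({1, 22} : Finset (ZMod 23)), ∀ b ∈ ({1, 22} : Finset (ZMod 23)),
    ∀ c ∈ ({1, 22} : Finset (ZMod 23)), a + b + c ≠ 0 := by decide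
  have h3 : ∀ a : ZMod 23, a ^ 11 ≠ ((11 : ℕ) : ZMod 23) := by decide
  have : Fact (Nat.Prime 23) := ⟨by norm_num⟩
  exact caseOne_of_sophieGermain 11 23 (by norm_num) (by decide) (sg_table _ h1 h2) h3 x y z h

set_option maxRecDepth 100000 in
theorem caseOne_13 (x y z : ℤ) (h : x ^ 13 + y ^ 13 + z ^ 13 = 0) : (13 : ℤ) ∣ x * y * z := by
  have h1 : ∀ a : ZMod 53, a = 0 ∨ a ^ 13 ∈ ({1, 52, 23, 30} : Finset (ZMod 53)) := by decide
  have h2 : ∀ a ∈ ({1, 52, 23, 30} : Finset (ZMod 53)),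
    ∀ b ∈ ({1, 52, 23, 30} : Finset (ZMod 53)),
    ∀ c ∈ ({1, 52, 23, 30} : Finset (ZMod 53)), a + b + c ≠ 0 := by decide
  have h3 : ∀ a : ZMod 53, a ^ 13 ≠ ((13 : ℕ) : ZMod 53) := by decide
  have : Fact (Nat.Prime 53) := ⟨by norm_num⟩
  exact caseOne_of_sophieGermain 13 53 (by norm_num) (by decide) (sg_table _ h1 h2) h3 x y z h

end instances

end Fermat.Agent.Kummer
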