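/-
Second case of Fermat's Last Theorem for an odd prime `p` such that `ℤ[ζ_p]` is a PID and Kummer's
lemma holds. Abstract version: `R` is any PID with the relevant properties.
-/
import Mathlib

set_option autoImplicit false

namespace Fermat.Agent.Kummer

open Finset Polynomial

/-- The properties of `R = ℤ[ζ_p]` needed in Kummer's descent for the second case. -/
structure KData (R : Type*) [CommRing R] (p : ℕ) (ζ : R) : Prop where
  pp : p.Prime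
  podd : p ≠ 2
  prim : IsPrimitiveRoot ζ p
  lamPrime : Prime (ζ - 1)
  assoc : Associated ((ζ - 1) ^ (p - 1)) (p : R)
  intCong : ∀ x : R, ∃ n : ℤ, ζ - 1 ∣ x - n
  dvdInt : ∀ n : ℤ, ζ - 1 ∣ (n : R) → (p : ℤ) ∣ n
  kummer : ∀ u : Rˣ, (∃ n : ℤ, (p : R) ∣ (u : R) - n) → ∃ v : Rˣ, u = v ^ p

namespace KData

variable {R : Type*} [CommRing R] {p : ℕ} {ζ : R}

theorem lam_dvd_p (h : KData R p ζ) : ζ - 1 ∣ (p : R) :=
  (dvd_pow_self _ (by have := h.pp.two_le; omega)).trans h.assoc.dvd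

theorem p_dvd_lam_pow (h : KData R p ζ) : (p : R) ∣ (ζ - 1) ^ p :=
  h.assoc.symm.dvd.trans (pow_dvd_pow _ (Nat.sub_le _ _))

theorem lam_dvd_int (h : KData R p ζ) {n : ℤ} (hn : (p : ℤ) ∣ n) : ζ - 1 ∣ (n : R) := by
  obtain ⟨k, rfl⟩ := hn
  push_cast
  exact (h.lam_dvd_p).mul_right _

/-- If `x ≡ n mod λ`, then `x ^ p ≡ n ^ p mod p`. -/
theorem pow_cong (h : KData R p ζ) {x : R} {n : ℤ} (hx : ζ - 1 ∣ x - n) :
    (p : R) ∣ x ^ p - ((n ^ p : ℤ) : R) := by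
  obtain ⟨t, ht⟩ := hx
  obtain ⟨r, hr⟩ := exists_add_pow_prime_eq h.pp (n : R) ((ζ - 1) * t)
  have hx' : x = (n : R) + (ζ - 1) * t := by rw [← ht]; ring
  rw [hx', hr]
  push_cast
  have h1 : (p : R) ∣ ((ζ - 1) * t) ^ p := by
    rw [mul_pow]; exact h.p_dvd_lam_pow.mul_right _
  have h2 : (n : R) ^ p + ((ζ - 1) * t) ^ p + p * n * ((ζ - 1) * t) * r - n ^ p =
    ((ζ - 1) * t) ^ p + p * (n * ((ζ - 1) * t) * r) := by ring
  rw [h2]
  exact dvd_add h1 (dvd_mul_right _ _)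

theorem pow_cong' (h : KData R p ζ) (x : R) :
    ∃ n : ℤ, (p : R) ∣ x ^ p - (n : R) ∧ ζ - 1 ∣ x ^ p - n := by
  obtain ⟨n, hn⟩ := h.intCong x
  exact ⟨n ^ p, h.pow_cong hn, h.lam_dvd_p.trans (h.pow_cong hn)⟩

theorem exists_inv_int (h : KData R p ζ) {n : ℤ} (hn : ¬ (p : ℤ) ∣ n) :
    ∃ k : ℤ, (p : ℤ) ∣ n * k - 1 := by
  have hc : IsCoprime (p : ℤ) n :=
    ((Nat.prime_iff_prime_int.mp h.pp).coprime_iff_not_dvd).mpr hn
  obtain ⟨a, b, hab⟩ := hc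
  exact ⟨b, ⟨-a, by linear_combination hab⟩⟩

/-- `ζ^i ≡ 1 + i λ mod λ²`, in the form `ζ ^ i - 1 = λ * s` with `s ≡ i mod λ`. -/
theorem pow_sub_one (ζ : R) (i : ℕ) :
    ∃ s : R, ζ ^ i - 1 = (ζ - 1) * s ∧ ζ - 1 ∣ s - i := by
  refine ⟨∑ j ∈ range i, ζ ^ j, (mul_geom_sum _ _).symm, ?_⟩
  have : (∑ j ∈ range i, ζ ^ j) - i = ∑ j ∈ range i, (ζ ^ j - 1) := by
    simp [Finset.sum_sub_distrib]
  rw [this]
  exact Finset.dvd_sum fun j _ => sub_one_dvd_pow_sub_one ζ j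

variable [IsDomain R]

/-- Coprimality of the factors. -/
theorem coprime_factor {x y η₁ η₂ a b u : R} {lam : R} (hlam : lam ≠ 0)
    (hxy : IsCoprime x y) (ha : x + η₁ * y = lam * a) (hb : x + η₂ * y = lam * b)
    (hu : η₁ - η₂ = lam * u) (huu : IsUnit u) : IsCoprime a b := by
  obtain ⟨v, rfl⟩ := huu
  obtain ⟨c, d, hcd⟩ := hxy
  have h1 : a - b = v * y := by
    apply mul_left_cancel₀ hlam
    linear_combination hb - ha + y * hu
  have h2 : η₁ * b - η₂ * a = v * x := by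
    apply mul_left_cancel₀ hlam
    linear_combination η₂ * ha - η₁ * hb + x * hu
  have h3 : (↑v⁻¹ : R) * v = 1 := v.inv_mul
  refine ⟨(↑v⁻¹ : R) * (d - c * η₂), (↑v⁻¹ : R) * (c * η₁ - d), ?_⟩
  linear_combination hcd * 1 + (c * x + d * y) * h3 + (↑v⁻¹ : R) * d * h1 + (↑v⁻¹ : R) * c * h2

variable [IsPrincipalIdealRing R]

/-- The descent step. -/
theorem descent_step (h : KData R p ζ) (m : ℕ) (x y z : R) (ε : Rˣ) (hxy : IsCoprime x y)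
    (hz : ¬ ζ - 1 ∣ z) (heq : x ^ p + y ^ p = ε * ((ζ - 1) ^ (m + 1) * z) ^ p) :
    ∃ m' : ℕ, m = m' + 1 ∧ ∃ (x' y' z' : R) (ε' : Rˣ), IsCoprime x' y' ∧ ¬ ζ - 1 ∣ z' ∧
      x' ^ p + y' ^ p = ε' * ((ζ - 1) ^ (m' + 1) * z') ^ p := by
  classical
  have hp0 : p ≠ 0 := h.pp.ne_zero
  have hp1 : 1 < p := h.pp.one_lt
  have hp3 : 3 ≤ p := by
    have := h.pp.two_le; have := h.podd; omega
  have hodd : Odd p := h.pp.odd_of_ne_two h.podd
  have : NeZero p := ⟨hp0⟩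
  have hlam0 : ζ - 1 ≠ 0 := h.lamPrime.ne_zero
  have hlamu : ¬ IsUnit (ζ - 1) := h.lamPrime.not_isUnit
  have hζp : ζ ^ p = 1 := h.prim.pow_eq_one
  set S := nthRootsFinset p (1 : R) with hS
  have hmem : ∀ i : ℕ, ζ ^ i ∈ S := fun i => by
    rw [hS, mem_nthRootsFinset h.pp.pos, ← pow_mul, mul_comm, pow_mul, hζp, one_pow]
  have h1S : (1 : R) ∈ S := by simpa using hmem 0
  have hζS : ζ ∈ S := by simpa using hmem 1
  have hζS' : ζ ^ (p - 1) ∈ S := hmem (p - 1)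
  have hζζ : ζ * ζ ^ (p - 1) = 1 := by
    rw [← pow_succ', Nat.sub_add_cancel h.pp.one_le, hζp]
  have hne1 : (1 : R) ≠ ζ := (h.prim.ne_one hp1).symm
  have hne2 : (1 : R) ≠ ζ ^ (p - 1) := by
    have := h.prim.pow_ne_one_of_pos_of_lt (l := p - 1) (by omega) (by omega)
    exact this.symm
  have hne3 : ζ ≠ ζ ^ (p - 1) := by
    intro hcon
    have : ζ ^ 2 = 1 := by rw [pow_two]; nth_rewrite 2 [hcon]; exact hζζ
    exact h.prim.pow_ne_one_of_pos_of_lt (l := 2) (by omega) (by omega) this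
  -- `λ ∤ y`
  have hlamrhs : ζ - 1 ∣ ε * ((ζ - 1) ^ (m + 1) * z) ^ p := by
    refine Dvd.dvd.mul_left ?_ _
    refine dvd_pow ?_ hp0
    exact (dvd_pow_self _ (Nat.succ_ne_zero m)).mul_right _
  have hy : ¬ ζ - 1 ∣ y := by
    intro hy
    have hx : ζ - 1 ∣ x ^ p := by
      have h1 : ζ - 1 ∣ x ^ p + y ^ p := heq ▸ hlamrhs
      exact (dvd_add_left (dvd_pow hy hp0)).mp h1
    have hx' := h.lamPrime.dvd_of_dvd_pow hx
    exact hlamu (hxy.isUnit_of_dvd' hx' hy)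
  -- `λ ∣ x + y`
  have hprod : ∏ η ∈ S, (x + η * y) = ε * ((ζ - 1) ^ (m + 1) * z) ^ p := by
    rw [← heq, h.prim.pow_add_pow_eq_prod_add_mul x y hodd]
  have hsub : ∀ η ∈ S, ζ - 1 ∣ η - 1 := fun η hη =>
    h.prim.sub_one_dvd_sub h.pp hη h1S
  have hxy1 : ζ - 1 ∣ x + y := by
    obtain ⟨η, hη, hd⟩ := (h.lamPrime.dvd_finsetProd_iff _).mp (hprod ▸ hlamrhs)
    have : x + y = (x + η * y) - (η - 1) * y := by ring
    rw [this]
    exact dvd_sub hd ((hsub η hη).mul_right _)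
  -- choose `i` such that `λ² ∣ x + ζ ^ i y`
  obtain ⟨i, hi⟩ : ∃ i : ℕ, (ζ - 1) ^ 2 ∣ x + ζ ^ i * y := by
    obtain ⟨w, hw⟩ := hxy1
    obtain ⟨c, hc⟩ := h.intCong w
    obtain ⟨b, hb⟩ := h.intCong y
    have hb' : ¬ (p : ℤ) ∣ b := fun hcon => hy (by
      have := dvd_add hb (h.lam_dvd_int hcon)
      simpa using this)
    obtain ⟨k, hk⟩ := h.exists_inv_int hb'
    -- i ≡ - c k mod p
    obtain ⟨i, hi⟩ : ∃ i : ℕ, (p : ℤ) ∣ (i : ℤ) + c * k := by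
      refine ⟨((-(c * k)) % p).toNat, ?_⟩
      have hp' : (p : ℤ) ≠ 0 := by exact_mod_cast hp0
      rw [Int.toNat_of_nonneg (Int.emod_nonneg _ hp')]
      have h1 := Int.emod_add_mul_ediv (-(c * k)) p
      exact ⟨-(-(c * k) / p), by linear_combination h1⟩
    have hcib : (p : ℤ) ∣ c + i * b := by
      have : c + i * b = (i + c * k) * b - c * (b * k - 1) := by ring
      rw [this]
      exact dvd_sub (hi.mul_right _) (hk.mul_left _)
    obtain ⟨s, hs, hsi⟩ := pow_sub_one ζ i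
    refine ⟨i, ?_⟩
    have e1 : x + ζ ^ i * y = (ζ - 1) * (w + s * y) := by
      linear_combination hw + y * hs
    rw [e1, pow_two]
    refine mul_dvd_mul_left _ ?_
    have e2 : w + s * y = (w - c) + (s - i) * y + i * (y - b) + ((c + i * b : ℤ) : R) := by
      push_cast; ring
    rw [e2]
    exact dvd_add (dvd_add (dvd_add hc (hsi.mul_right _)) (hb.mul_left _)) (h.lam_dvd_int hcib)
  -- replace `y` by `ζ ^ i y`
  set y₁ := ζ ^ i * y with hy₁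
  have hζi : IsUnit (ζ ^ i) := (h.prim.isUnit hp0).pow i
  have hxy₁ : IsCoprime x y₁ := by
    rw [hy₁]; exact (isCoprime_mul_unit_left_right hζi x y).mpr hxy
  have hyp : y₁ ^ p = y ^ p := by
    rw [hy₁, mul_pow, ← pow_mul, mul_comm i p, pow_mul, hζp, one_pow, one_mul]
  have hprod₁ : ∏ η ∈ S, (x + η * y₁) = ε * ((ζ - 1) ^ (m + 1) * z) ^ p := by
    rw [← heq, ← hyp, h.prim.pow_add_pow_eq_prod_add_mul x y₁ hodd]
  have hB : ∀ η ∈ S, ∃ b, x + η * y₁ = (ζ - 1) * b := by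
    intro η hη
    have h2 : ζ - 1 ∣ x + y₁ := (dvd_pow_self _ two_ne_zero).trans hi
    have : x + η * y₁ = (x + y₁) + (η - 1) * y₁ := by ring
    rw [this]
    exact dvd_add h2 ((hsub η hη).mul_right _)
  choose! B hB using hB
  have hprodB : ∏ η ∈ S, B η = ε * ((ζ - 1) ^ m * z) ^ p := by
    have h1 : ∏ η ∈ S, (x + η * y₁) = (ζ - 1) ^ p * ∏ η ∈ S, B η := by
      rw [Finset.prod_congr rfl hB, Finset.prod_mul_distrib, Finset.prod_const,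
        h.prim.card_nthRootsFinset]
    apply mul_left_cancel₀ (pow_ne_zero p hlam0)
    rw [← h1, hprod₁]
    generalize ζ - 1 = lam
    ring
  have hcop : ∀ η₁ ∈ S, ∀ η₂ ∈ S, η₁ ≠ η₂ → IsCoprime (B η₁) (B η₂) := by
    intro η₁ h₁ η₂ h₂ hne
    obtain ⟨u, hu⟩ := h.prim.nthRootsFinset_pairwise_associated_sub_one_sub_of_prime h.pp h₁ h₂ hne
    exact coprime_factor hlam0 hxy₁ (hB _ h₁) (hB _ h₂) hu.symm u.isUnit
  have hcop' : ∀ η₁ ∈ S, IsCoprime (B η₁) (∏ η ∈ S.erase η₁, B η) := by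
    intro η₁ h₁
    apply IsCoprime.prod_right
    intro η₂ h₂
    rw [Finset.mem_erase] at h₂
    exact hcop _ h₁ _ h₂.2 h₂.1.symm
  have hpow : ∀ η₁ ∈ S, ∃ (d : R) (u : Rˣ), B η₁ = u * d ^ p := by
    intro η₁ h₁
    have e1 : B η₁ * ((↑ε⁻¹ : R) * ∏ η ∈ S.erase η₁, B η) = ((ζ - 1) ^ m * z) ^ p := by
      have e2 := Finset.mul_prod_erase S B h₁
      have e3 : (↑ε⁻¹ : R) * ε = 1 := ε.inv_mul
      calc B η₁ * ((↑ε⁻¹ : R) * ∏ η ∈ S.erase η₁, B η)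
          = (↑ε⁻¹ : R) * (B η₁ * ∏ η ∈ S.erase η₁, B η) := by ring
        _ = ((ζ - 1) ^ m * z) ^ p := by
            rw [e2, hprodB, ← mul_assoc, e3, one_mul]
    have hc : IsCoprime (B η₁) ((↑ε⁻¹ : R) * ∏ η ∈ S.erase η₁, B η) :=
      (isCoprime_mul_unit_left_right (ε⁻¹).isUnit _ _).mpr (hcop' _ h₁)
    obtain ⟨d, u, hu⟩ := exists_associated_pow_of_mul_eq_pow' hc e1
    exact ⟨d, u, by rw [← hu]; ring⟩
  -- the factor `B 1`
  have hB1 : x + y₁ = (ζ - 1) * B 1 := by simpa using hB 1 h1S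
  have hlamB1 : ζ - 1 ∣ B 1 := by
    rw [hB1, pow_two] at hi
    exact (mul_dvd_mul_iff_left hlam0).mp hi
  have hnot : ∀ η ∈ S, η ≠ 1 → ¬ ζ - 1 ∣ B η := fun η hη hne hcon =>
    hlamu ((hcop 1 h1S η hη hne.symm).isUnit_of_dvd' hlamB1 hcon)
  have hnot' : ¬ ζ - 1 ∣ ∏ η ∈ S.erase 1, B η := fun hcon =>
    hlamu ((hcop' 1 h1S).isUnit_of_dvd' hlamB1 hcon)
  have hmul1 : B 1 * ∏ η ∈ S.erase 1, B η = ε * ((ζ - 1) ^ m * z) ^ p := by
    rw [Finset.mul_prod_erase S B h1S, hprodB]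
  -- m ≠ 0
  obtain ⟨m', rfl⟩ : ∃ m', m = m' + 1 := by
    refine Nat.exists_eq_succ_of_ne_zero ?_
    rintro rfl
    have h1 : ζ - 1 ∣ (ε : R) * ((ζ - 1) ^ 0 * z) ^ p := by
      rw [← hmul1]; exact hlamB1.mul_right _
    rw [pow_zero, one_mul, Units.dvd_mul_left] at h1
    exact hz (h.lamPrime.dvd_of_dvd_pow h1)
  refine ⟨m', rfl, ?_⟩
  obtain ⟨d₀, u₀, h₀⟩ := hpow 1 h1S
  obtain ⟨d₁, u₁, h₁⟩ := hpow ζ hζS
  obtain ⟨d₂, u₂, h₂⟩ := hpow _ hζS'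
  -- `d₀ = λ ^ (m' + 1) ρ`, `λ ∤ ρ`
  obtain ⟨ρ, hρ⟩ : (ζ - 1) ^ (m' + 1) ∣ d₀ := by
    have h1 : (ζ - 1) ^ ((m' + 1) * p) ∣ B 1 * ∏ η ∈ S.erase 1, B η := by
      rw [hmul1, mul_pow, pow_mul]
      exact (dvd_mul_right _ _).mul_left _
    have h2 := h.lamPrime.pow_dvd_of_dvd_mul_right _ hnot' h1
    rw [h₀, Units.dvd_mul_left, pow_mul] at h2
    exact (UniqueFactorizationMonoid.pow_dvd_pow_iff_dvd hp0).mp h2
  have hρ' : ¬ ζ - 1 ∣ ρ := by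
    rintro ⟨τ, rfl⟩
    have h1 : (ζ - 1) ^ ((m' + 1) * p) * (ζ - 1) ^ p ∣ (ζ - 1) ^ ((m' + 1) * p) * z ^ p := by
      have h2 : (ζ - 1) ^ ((m' + 1) * p) * (ζ - 1) ^ p ∣ ε * ((ζ - 1) ^ (m' + 1) * z) ^ p := by
        rw [← hmul1, h₀, hρ]
        refine Dvd.dvd.mul_right (Dvd.dvd.mul_left ?_ _) _
        refine ⟨τ ^ p, ?_⟩
        generalize ζ - 1 = lam
        ring
      rwa [Units.dvd_mul_left, mul_pow, ← pow_mul] at h2
    have h3 := (mul_dvd_mul_iff_left (pow_ne_zero _ hlam0)).mp h1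
    exact hz (h.lamPrime.dvd_of_dvd_pow ((dvd_pow_self _ hp0).trans h3))
  -- the new equation
  have hnew : B ζ + ζ * B (ζ ^ (p - 1)) = (1 + ζ) * B 1 := by
    apply mul_left_cancel₀ hlam0
    linear_combination (1 + ζ) * hB1 - hB ζ hζS - ζ * hB _ hζS' + y₁ * hζζ
  have h1ζ : IsUnit (1 + ζ) := by
    have hc : Nat.Coprime 2 p := by
      rw [Nat.coprime_primes Nat.prime_two h.pp]; exact h.podd.symm
    have := h.prim.geom_sum_isUnit (j := 2) h.pp.two_le hc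
    simpa [Finset.sum_range_succ] using this
  obtain ⟨w, hw⟩ := h1ζ
  obtain ⟨ζu, hζu⟩ := h.prim.isUnit hp0
  have hu1 : (↑u₁⁻¹ : R) * u₁ = 1 := u₁.inv_mul
  have heqn : d₁ ^ p + ((u₁⁻¹ * ζu * u₂ : Rˣ) : R) * d₂ ^ p =
      ((u₁⁻¹ * w * u₀ : Rˣ) : R) * ((ζ - 1) ^ (m' + 1) * ρ) ^ p := by
    rw [h₀, h₁, h₂, hρ, ← hw] at hnew
    push_cast
    rw [hζu]
    linear_combination (↑u₁⁻¹ : R) * hnew - d₁ ^ p * hu1
  set η := u₁⁻¹ * ζu * u₂ with hη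
  -- `η` is congruent to an integer modulo `p`
  obtain ⟨n₁, hn₁, -⟩ := h.pow_cong' d₁
  obtain ⟨n₂, hn₂, hn₂'⟩ := h.pow_cong' d₂
  have hn2 : ¬ (p : ℤ) ∣ n₂ := by
    intro hcon
    have h1 : ζ - 1 ∣ d₂ ^ p := by
      have := dvd_add hn₂' (h.lam_dvd_int hcon)
      simpa using this
    refine hnot _ hζS' hne2.symm ?_
    rw [h₂]
    exact h1.mul_left _
  obtain ⟨k, hk⟩ := h.exists_inv_int hn2
  have hint : ∃ n : ℤ, (p : R) ∣ (η : R) - n := by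
    refine ⟨-(n₁ * k), ?_⟩
    have hp_rhs : (p : R) ∣ ((u₁⁻¹ * w * u₀ : Rˣ) : R) * ((ζ - 1) ^ (m' + 1) * ρ) ^ p := by
      refine Dvd.dvd.mul_left ?_ _
      rw [mul_pow, ← pow_mul]
      refine Dvd.dvd.mul_right (h.p_dvd_lam_pow.trans (pow_dvd_pow _ ?_)) _
      nlinarith
    have hk' : (p : R) ∣ (n₂ * k - 1 : R) := by
      obtain ⟨l, hl⟩ := hk
      exact ⟨l, by exact_mod_cast congrArg (Int.cast : ℤ → R) hl⟩
    have e : (η : R) - ((-(n₁ * k) : ℤ) : R) =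
        (d₁ ^ p + (η : R) * d₂ ^ p) * k - (d₁ ^ p - n₁) * k - (η : R) * k * (d₂ ^ p - n₂)
          - (η : R) * (n₂ * k - 1) := by
      push_cast; ring
    rw [e, heqn]
    exact dvd_sub (dvd_sub (dvd_sub (hp_rhs.mul_right _) (hn₁.mul_right _)) (hn₂.mul_left _))
      (hk'.mul_left _)
  obtain ⟨v, hv⟩ := h.kummer η hint
  refine ⟨d₁, v * d₂, ρ, u₁⁻¹ * w * u₀, ?_, hρ', ?_⟩
  · have hc := hcop _ hζS _ hζS' hne3
    rw [h₁, h₂, isCoprime_mul_unit_left_left u₁.isUnit, isCoprime_mul_unit_left_right u₂.isUnit,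
      IsCoprime.pow_iff h.pp.pos h.pp.pos] at hc
    exact (isCoprime_mul_unit_left_right v.isUnit _ _).mpr hc
  · rw [← heqn, hv]
    push_cast
    ring

/-- There are no solutions of `x ^ p + y ^ p = ε (λ ^ (m + 1) z) ^ p`. -/
theorem descent (h : KData R p ζ) (m : ℕ) : ∀ (x y z : R) (ε : Rˣ), IsCoprime x y →
    ¬ ζ - 1 ∣ z → x ^ p + y ^ p = ε * ((ζ - 1) ^ (m + 1) * z) ^ p → False := by
  induction m with
  | zero =>
    intro x y z ε hxy hz heq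
    obtain ⟨m', hm', -⟩ := h.descent_step 0 x y z ε hxy hz heq
    omega
  | succ m ih =>
    intro x y z ε hxy hz heq
    obtain ⟨m', hm', x', y', z', ε', h1, h2, h3⟩ := h.descent_step (m + 1) x y z ε hxy hz heq
    obtain rfl : m = m' := by omega
    exact ih x' y' z' ε' h1 h2 h3

/-- Second case of Fermat's Last Theorem over `ℤ`. -/
theorem caseTwo (h : KData R p ζ) (hinj : Function.Injective (Int.cast : ℤ → R))
    (x y z : ℤ) (hxy : IsCoprime x y) (hz0 : z ≠ 0) (hz : (p : ℤ) ∣ z)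
    (heq : x ^ p + y ^ p = z ^ p) : False := by
  have hz' : (z : R) ≠ 0 := fun hcon => hz0 (hinj (by simpa using hcon))
  have hfin : FiniteMultiplicity (ζ - 1) (z : R) :=
    FiniteMultiplicity.of_prime_left h.lamPrime hz'
  obtain ⟨c, hc, hc'⟩ := hfin.exists_eq_pow_mul_and_not_dvd
  obtain ⟨m, hm⟩ : ∃ m, multiplicity (ζ - 1) (z : R) = m + 1 := by
    refine Nat.exists_eq_succ_of_ne_zero ?_
    intro hcon
    rw [hcon, pow_zero, one_mul] at hc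
    exact hc' (hc ▸ h.lam_dvd_int hz)
  rw [hm] at hc
  refine h.descent m (x : R) (y : R) c 1 ?_ hc' ?_
  · exact hxy.map (Int.castRingHom R)
  · rw [← hc, Units.val_one, one_mul]
    exact_mod_cast congrArg (Int.cast : ℤ → R) heq

end KData

end Fermat.Agent.Kummer
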