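import Fermat.Agent.Kummer.PIDBasic

/-!
# The ring of integers of the 13th cyclotomic field is principal
-/

set_option autoImplicit false
set_option linter.unusedSimpArgs false

namespace Fermat.Agent.Kummer

open NumberField Ideal IsCyclotomicExtension.Rat Polynomial

theorem exists_principal_3 {K : Type*} [Field K] [NumberField K] [IsCyclotomicExtension {13} ℚ K] :
    ∃ P ∈ primesOver (span {((3 : ℕ) : ℤ)}) (𝓞 K), Submodule.IsPrincipal P := by
  have h30 : (3 : ZMod 3) = 0 := by decide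
  have : Fact (Nat.Prime 13) := ⟨by norm_num⟩
  have : Fact (Nat.Prime 3) := ⟨by norm_num⟩
  have hζ := IsCyclotomicExtension.zeta_spec 13 ℚ K
  have hz := hζ.toInteger_isPrimitiveRoot.geom_sum_eq_zero (by norm_num)
  simp only [Finset.sum_range_succ, Finset.range_zero, Finset.sum_empty, zero_add, pow_zero,
    pow_one] at hz
  have hgnat : (X ^ 3 - X - 1 : (ZMod 3)[X]).natDegree = 3 := by compute_degree!
  have hgdeg : (X ^ 3 - X - 1 : (ZMod 3)[X]).degree ≠ 0 := by
    intro h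
    have := natDegree_eq_of_degree_eq_some (n := 0) (by rw [h]; rfl)
    omega
  have hgne : (X ^ 3 - X - 1 : (ZMod 3)[X]) ≠ 0 := by
    intro h
    rw [h] at hgnat
    simp at hgnat
  have hnt : Nontrivial (AdjoinRoot (X ^ 3 - X - 1 : (ZMod 3)[X])) :=
    AdjoinRoot.nontrivial _ hgdeg
  have hroot := AdjoinRoot.eval₂_root (X ^ 3 - X - 1 : (ZMod 3)[X])
  simp only [eval₂_sub, eval₂_pow, eval₂_X, eval₂_one] at hroot
  set a := AdjoinRoot.root (X ^ 3 - X - 1 : (ZMod 3)[X]) with ha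
  have h3 : (3 : AdjoinRoot (X ^ 3 - X - 1 : (ZMod 3)[X])) = 0 := by
    have := congrArg (AdjoinRoot.of (X ^ 3 - X - 1 : (ZMod 3)[X])) h30
    rwa [map_zero, map_ofNat] at this
  obtain ⟨f, hf⟩ := exists_ringHom_of_root (p := 13) hζ a (by
    simp only [Finset.sum_range_succ, Finset.range_zero, Finset.sum_empty, zero_add, pow_zero,
      pow_one]
    linear_combination (-1 - a^2 - a^3 + a^5 - a^7 + a^8 + a^9) * hroot +
      (a^5 + a^6 + a^9 + a^10) * h3)
  set z : 𝓞 K := hζ.toInteger with hzdef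
  refine exists_principal_of_monic (p := 13) hζ 3 (by norm_num) (X ^ 3 - X - 1)
    (by monicity!) ?_ (z ^ 3 - z - 1)
    (1 + z^2 + z^3 + 2*z^5 + z^7 + 2*z^8 - z^9 + 3*z^10) 1 ?_ ?_ ?_
  · have h1 : (X ^ 3 - X - 1 : ℤ[X]).natDegree = 3 := by compute_degree!
    rw [h1]
    obtain ⟨h2, h3⟩ := order_facts 13 3 (by norm_num) (by norm_num)
    by_contra hlt
    have : orderOf ((3 : ℕ) : ZMod 13) < 3 := not_le.mp hlt
    generalize orderOf ((3 : ℕ) : ZMod 13) = k at h2 h3 this
    interval_cases k <;> omega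
  · push_cast
    linear_combination (-4 + 3*z) * hz
  · rw [← hzdef]
    simp only [map_sub, map_pow, aeval_X, map_one, mul_one]
  · intro hu
    have h0 := hu.map f
    simp only [map_sub, map_pow, map_one, hf] at h0
    rw [hroot] at h0
    exact not_isUnit_zero h0

theorem exists_principal_53 {K : Type*} [Field K] [NumberField K] [IsCyclotomicExtension {13} ℚ K] :
    ∃ P ∈ primesOver (span {((53 : ℕ) : ℤ)}) (𝓞 K), Submodule.IsPrincipal P := by
  have hsum : ∑ i ∈ Finset.range 13, (36 : ZMod 53) ^ i = 0 := by decide +kernel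
  have hval : 1 + (36 : ZMod 53) + (36 : ZMod 53)^3 = 0 := by decide +kernel
  have : Fact (Nat.Prime 13) := ⟨by norm_num⟩
  have : Fact (Nat.Prime 53) := ⟨by norm_num⟩
  have hζ := IsCyclotomicExtension.zeta_spec 13 ℚ K
  have hz := hζ.toInteger_isPrimitiveRoot.geom_sum_eq_zero (by norm_num)
  simp only [Finset.sum_range_succ, Finset.range_zero, Finset.sum_empty, zero_add, pow_zero,
    pow_one] at hz
  obtain ⟨f, hf⟩ := exists_ringHom_of_root (p := 13) hζ (36 : ZMod 53) hsum
  set z : 𝓞 K := hζ.toInteger with hzdef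
  refine exists_principal_of_monic (p := 13) hζ 53 (by norm_num) (X - C (-17)) (monic_X_sub_C _)
    ?_ (1 + z + z^3) (1 - 24*z - 35*z^2 - 25*z^3 - 10*z^4 - 14*z^5 - 20*z^6 - 29*z^7 - 16*z^8 - 23*z^9 - 7*z^10 - 36*z^11) (1 - 7*z - 11*z^2 - 8*z^3 - 3*z^4 - 4*z^5 - 6*z^6 - 9*z^7 - 5*z^8 - 7*z^9 - 2*z^10 - 11*z^11) ?_ ?_ ?_
  · rw [natDegree_X_sub_C]
    exact (order_facts 13 53 (by norm_num) (by norm_num)).1
  · push_cast
    linear_combination (-52 + 29*z - 36*z^2) * hz
  · rw [← hzdef]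
    simp only [map_sub, map_neg, map_ofNat, aeval_X]
    linear_combination (-16 + 9*z - 11*z^2) * hz
  · intro hu
    have h0 := hu.map f
    simp only [map_add, map_sub, map_pow, map_one, hf] at h0
    rw [hval] at h0
    exact not_isUnit_zero h0


theorem exists_principal_79 {K : Type*} [Field K] [NumberField K] [IsCyclotomicExtension {13} ℚ K] :
    ∃ P ∈ primesOver (span {((79 : ℕ) : ℤ)}) (𝓞 K), Submodule.IsPrincipal P := by
  have hsum : ∑ i ∈ Finset.range 13, (64 : ZMod 79) ^ i = 0 := by decide +kernel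
  have hval : 1 + (64 : ZMod 79) - (64 : ZMod 79)^4 = 0 := by decide +kernel
  have : Fact (Nat.Prime 13) := ⟨by norm_num⟩
  have : Fact (Nat.Prime 79) := ⟨by norm_num⟩
  have hζ := IsCyclotomicExtension.zeta_spec 13 ℚ K
  have hz := hζ.toInteger_isPrimitiveRoot.geom_sum_eq_zero (by norm_num)
  simp only [Finset.sum_range_succ, Finset.range_zero, Finset.sum_empty, zero_add, pow_zero,
    pow_one] at hz
  obtain ⟨f, hf⟩ := exists_ringHom_of_root (p := 13) hζ (64 : ZMod 79) hsum
  set z : 𝓞 K := hζ.toInteger with hzdef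
  refine exists_principal_of_monic (p := 13) hζ 79 (by norm_num) (X - C (-15)) (monic_X_sub_C _)
    ?_ (1 + z - z^4) (24 - 25*z - 27*z^2 + 10*z^3 - 3*z^4 - 39*z^5 - 5*z^6 - 2*z^7 - 18*z^8 - 38*z^9 + 16*z^10 - 35*z^11) (5 - 4*z - 5*z^2 + 2*z^3 - 7*z^5 - z^6 - 3*z^8 - 7*z^9 + 3*z^10 - 6*z^11) ?_ ?_ ?_
  · rw [natDegree_X_sub_C]
    exact (order_facts 13 79 (by norm_num) (by norm_num)).1
  · push_cast
    linear_combination (-55 + 54*z - 51*z^2 + 35*z^3) * hz
  · rw [← hzdef]
    simp only [map_sub, map_neg, map_ofNat, aeval_X]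
    linear_combination (-10 + 10*z - 9*z^2 + 6*z^3) * hz
  · intro hu
    have h0 := hu.map f
    simp only [map_add, map_sub, map_pow, map_one, hf] at h0
    rw [hval] at h0
    exact not_isUnit_zero h0


theorem exists_principal_131 {K : Type*} [Field K] [NumberField K] [IsCyclotomicExtension {13} ℚ K] :
    ∃ P ∈ primesOver (span {((131 : ℕ) : ℤ)}) (𝓞 K), Submodule.IsPrincipal P := by
  have hsum : ∑ i ∈ Finset.range 13, (80 : ZMod 131) ^ i = 0 := by decide +kernel
  have hval : 1 - (80 : ZMod 131) - (80 : ZMod 131)^3 = 0 := by decide +kernel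
  have : Fact (Nat.Prime 13) := ⟨by norm_num⟩
  have : Fact (Nat.Prime 131) := ⟨by norm_num⟩
  have hζ := IsCyclotomicExtension.zeta_spec 13 ℚ K
  have hz := hζ.toInteger_isPrimitiveRoot.geom_sum_eq_zero (by norm_num)
  simp only [Finset.sum_range_succ, Finset.range_zero, Finset.sum_empty, zero_add, pow_zero,
    pow_one] at hz
  obtain ⟨f, hf⟩ := exists_ringHom_of_root (p := 13) hζ (80 : ZMod 131) hsum
  set z : 𝓞 K := hζ.toInteger with hzdef
  refine exists_principal_of_monic (p := 13) hζ 131 (by norm_num) (X - C (-51)) (monic_X_sub_C _)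
    ?_ (1 - z - z^3) (111 + 78*z + 17*z^2 + 67*z^3 + 84*z^4 + 40*z^5 + 46*z^6 + 69*z^7 + 48*z^8 + 33*z^9 + 41*z^10 + 28*z^11) (43 + 31*z + 7*z^2 + 26*z^3 + 33*z^4 + 16*z^5 + 18*z^6 + 27*z^7 + 19*z^8 + 13*z^9 + 16*z^10 + 11*z^11) ?_ ?_ ?_
  · rw [natDegree_X_sub_C]
    exact (order_facts 13 131 (by norm_num) (by norm_num)).1
  · push_cast
    linear_combination (-20 - 13*z - 28*z^2) * hz
  · rw [← hzdef]
    simp only [map_sub, map_neg, map_ofNat, aeval_X]
    linear_combination (-8 - 5*z - 11*z^2) * hz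
  · intro hu
    have h0 := hu.map f
    simp only [map_add, map_sub, map_pow, map_one, hf] at h0
    rw [hval] at h0
    exact not_isUnit_zero h0


theorem exists_principal_157 {K : Type*} [Field K] [NumberField K] [IsCyclotomicExtension {13} ℚ K] :
    ∃ P ∈ primesOver (span {((157 : ℕ) : ℤ)}) (𝓞 K), Submodule.IsPrincipal P := by
  have hsum : ∑ i ∈ Finset.range 13, (75 : ZMod 157) ^ i = 0 := by decide +kernel
  have hval : 1 - (75 : ZMod 157) + (75 : ZMod 157)^2 + (75 : ZMod 157)^4 = 0 := by decide +kernel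
  have : Fact (Nat.Prime 13) := ⟨by norm_num⟩
  have : Fact (Nat.Prime 157) := ⟨by norm_num⟩
  have hζ := IsCyclotomicExtension.zeta_spec 13 ℚ K
  have hz := hζ.toInteger_isPrimitiveRoot.geom_sum_eq_zero (by norm_num)
  simp only [Finset.sum_range_succ, Finset.range_zero, Finset.sum_empty, zero_add, pow_zero,
    pow_one] at hz
  obtain ⟨f, hf⟩ := exists_ringHom_of_root (p := 13) hζ (75 : ZMod 157) hsum
  set z : 𝓞 K := hζ.toInteger with hzdef
  refine exists_principal_of_monic (p := 13) hζ 157 (by norm_num) (X - C (-82)) (monic_X_sub_C _)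
    ?_ (1 - z + z^2 + z^4) (89 + 86*z + 42*z^2 + 77*z^3 + 67*z^4 + 25*z^5 + 37*z^6 + 56*z^7 + 73*z^8 + 113*z^9 + 124*z^10 + 76*z^11) (46 + 45*z + 22*z^2 + 40*z^3 + 35*z^4 + 13*z^5 + 19*z^6 + 29*z^7 + 38*z^8 + 59*z^9 + 65*z^10 + 40*z^11) ?_ ?_ ?_
  · rw [natDegree_X_sub_C]
    exact (order_facts 13 157 (by norm_num) (by norm_num)).1
  · push_cast
    linear_combination (-68 + 65*z + 48*z^2 + 76*z^3) * hz
  · rw [← hzdef]
    simp only [map_sub, map_neg, map_ofNat, aeval_X]
    linear_combination (-36 + 34*z + 25*z^2 + 40*z^3) * hz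
  · intro hu
    have h0 := hu.map f
    simp only [map_add, map_sub, map_pow, map_one, hf] at h0
    rw [hval] at h0
    exact not_isUnit_zero h0

theorem mem_of_pow_le (q f : ℕ) (hq : q < 308) (hf0 : 0 < f) (hf : f < 9) (hle : q ^ f ≤ 307)
    (hmod : q ^ f % 13 = 1) (hqp : q.Prime) :
    q = 3 ∨ q = 53 ∨ q = 79 ∨ q = 131 ∨ q = 157 := by
  have key : ∀ q < 308, ∀ f < 9, (0 < f ∧ q ^ f ≤ 307 ∧ q ^ f % 13 = 1 ∧ q.Prime) →
      q = 3 ∨ q = 53 ∨ q = 79 ∨ q = 131 ∨ q = 157 := by decide +kernel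
  exact key q hq f hf ⟨hf0, hle, hmod, hqp⟩

theorem pid_13 (K : Type*) [Field K] [NumberField K] [IsCyclotomicExtension {13} ℚ K] :
    IsPrincipalIdealRing (𝓞 K) := by
  have : Fact (Nat.Prime 13) := ⟨by norm_num⟩
  refine pid_of_bound 13 K 307 ?_ ?_
  · rw [discr_prime 13 K, IsCyclotomicExtension.finrank (n := 13) K
      (cyclotomic.irreducible_rat (by simp)), nrComplexPlaces_eq_totient_div_two 13,
      Nat.totient_prime (by norm_num)]
    norm_num [Nat.factorial]
    have h1 : √(1792160394037 : ℝ) < 1338720 := by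
      rw [Real.sqrt_lt' (by norm_num)]
      norm_num
    have h2 : (4 / Real.pi) ^ 6 < (4 / 3.14) ^ 6 := by
      have := Real.pi_gt_d2
      gcongr
    have h3 : 0 < (4 / Real.pi) ^ 6 := by positivity
    have h4 : (4 / Real.pi) ^ 6 * √(1792160394037 : ℝ) < (4 / 3.14) ^ 6 * 1338720 := by
      gcongr
    norm_num at h4 ⊢
    nlinarith
  · intro q hq hqp hq7 hle
    obtain ⟨h0, h1⟩ := order_facts 13 q hqp hq7
    generalize orderOf (q : ZMod 13) = f at h0 h1 hle
    have hf : f < 9 := by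
      by_contra hf
      have : 2 ^ 9 ≤ q ^ f := (Nat.pow_le_pow_left hqp.two_le 9).trans
        (Nat.pow_le_pow_right hqp.pos (by omega))
      omega
    rcases mem_of_pow_le q f (by omega) h0 hf hle h1 hqp with rfl | rfl | rfl | rfl | rfl
    · exact exists_principal_3
    · exact exists_principal_53
    · exact exists_principal_79
    · exact exists_principal_131
    · exact exists_principal_157

end Fermat.Agent.Kummer
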