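import Fermat.Agent.Kummer.PIDBasic

/-!
# The ring of integers of the 7th cyclotomic field is principal
-/

set_option autoImplicit false

namespace Fermat.Agent.Kummer

open NumberField Ideal IsCyclotomicExtension.Rat Polynomial

theorem pid_7 (K : Type*) [Field K] [NumberField K] [IsCyclotomicExtension {7} ℚ K] :
    IsPrincipalIdealRing (𝓞 K) := by
  have : Fact (Nat.Prime 7) := ⟨by norm_num⟩
  refine pid_of_bound 7 K 4 ?_ ?_
  · rw [discr_prime 7 K, IsCyclotomicExtension.finrank (n := 7) K
      (cyclotomic.irreducible_rat (by simp)), nrComplexPlaces_eq_totient_div_two 7,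
      Nat.totient_prime (by norm_num)]
    norm_num [Nat.factorial]
    have h1 : √(16807 : ℝ) < 130 := by
      rw [Real.sqrt_lt' (by norm_num)]
      norm_num
    have h2 : (4 / Real.pi) ^ 3 < (4 / 3) ^ 3 := by
      have := Real.pi_gt_three
      gcongr
    have h3 : 0 < (4 / Real.pi) ^ 3 := by positivity
    nlinarith [Real.sqrt_nonneg (16807 : ℝ)]
  · intro q hq hqp hq7 hle
    exfalso
    obtain ⟨h0, h1⟩ := order_facts 7 q hqp hq7
    generalize orderOf (q : ZMod 7) = f at h0 h1 hle
    have hf : f < 3 := by
      by_contra hf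
      have : 2 ^ 3 ≤ q ^ f := (Nat.pow_le_pow_left hqp.two_le 3).trans
        (Nat.pow_le_pow_right hqp.pos (by omega))
      omega
    interval_cases q <;> interval_cases f <;> first | omega | (revert hqp; decide)

end Fermat.Agent.Kummer
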