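import Fermat.Agent.Kummer.UnitFunctional

/-!
# Kummer's lemma on units for `p = 5, 7, 11, 13`

A unit of `ℤ[ζ_p]` congruent to a rational integer modulo `p` is a `p`-th power.
-/

set_option autoImplicit false

open Polynomial NumberField

namespace Fermat.Agent.Kummer

/-- Abstract linear algebra behind Kummer's lemma. -/
lemma exists_eq_pow_of_hom {p : ℕ} [Fact p.Prime] {G ι κ : Type*} [CommGroup G]
    [Fintype ι] [Fintype κ] [DecidableEq κ] (hcard : Fintype.card ι = Fintype.card κ)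
    (t : ι → G) (hgen : ∀ g : G, ∃ e : ι → ℤ, g = ∏ i, t i ^ e i)
    (L : κ → G →* Multiplicative (ZMod p)) (u : κ → G)
    (hu : IsUnit (Matrix.of fun i j : κ => Multiplicative.toAdd (L j (u i))))
    (g : G) (hg : ∀ j, L j g = 1) : ∃ h, g = h ^ p := by
  classical
  -- the linear map attached to the generators
  let T : (ι → ZMod p) →ₗ[ZMod p] (κ → ZMod p) :=
    Fintype.linearCombination (ZMod p) (fun i j => Multiplicative.toAdd (L j (t i)))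
  have hT : ∀ e : ι → ℤ, T (fun i => (e i : ZMod p)) =
      fun j => Multiplicative.toAdd (L j (∏ i, t i ^ e i)) := by
    intro e
    funext j
    simp only [T, Fintype.linearCombination_apply, Finset.sum_apply, Pi.smul_apply, smul_eq_mul,
      map_prod, map_zpow, toAdd_prod, toAdd_zpow, zsmul_eq_mul]
  set M : Matrix κ κ (ZMod p) := Matrix.of fun i j : κ => Multiplicative.toAdd (L j (u i)) with hM
  have hsurj : Function.Surjective T := by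
    rw [← LinearMap.range_eq_top, eq_top_iff]
    intro v _
    have hrow : ∀ i, M i ∈ LinearMap.range T := by
      intro i
      obtain ⟨e, he⟩ := hgen (u i)
      refine ⟨fun i => (e i : ZMod p), ?_⟩
      rw [hT, ← he]
      rfl
    have hv : v = ∑ i, (Matrix.vecMul v M⁻¹) i • M i := by
      have h1 : Matrix.vecMul (Matrix.vecMul v M⁻¹) M = v := by
        rw [Matrix.vecMul_vecMul, Matrix.nonsing_inv_mul _ ((Matrix.isUnit_iff_isUnit_det _).mp hu),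
          Matrix.vecMul_one]
      conv_lhs => rw [← h1]
      rw [Matrix.vecMul_eq_sum]
    rw [hv]
    exact Submodule.sum_mem _ (fun i _ => Submodule.smul_mem _ _ (hrow i))
  have hinj : Function.Injective T := by
    refine (LinearMap.injective_iff_surjective_of_finrank_eq_finrank ?_).mpr hsurj
    simp [hcard]
  obtain ⟨e, he⟩ := hgen g
  have h0 : (fun i => (e i : ZMod p)) = 0 := by
    apply hinj
    rw [hT, map_zero, ← he]
    funext j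
    rw [hg j]; rfl
  have hdvd : ∀ i, ∃ c : ℤ, e i = c * p := by
    intro i
    have h1 := congrFun h0 i
    obtain ⟨c, hc⟩ := (ZMod.intCast_zmod_eq_zero_iff_dvd (e i) p).mp h1
    exact ⟨c, by rw [hc, mul_comm]⟩
  choose c hc using hdvd
  refine ⟨∏ i, t i ^ c i, ?_⟩
  rw [he, ← Finset.prod_pow]
  refine Finset.prod_congr rfl (fun i _ => ?_)
  rw [hc i, zpow_mul, zpow_natCast]

section cyclotomic

variable {p : ℕ} [hp : Fact p.Prime] {K : Type*} [Field K] [NumberField K]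
  [hK : IsCyclotomicExtension {p} ℚ K] {ζ : K} (hζ : IsPrimitiveRoot ζ p)

/-- Units of a prime cyclotomic field are generated by `(p-1)/2` elements. -/
lemma exists_generators (K : Type*) [Field K] [NumberField K] [hK : IsCyclotomicExtension {p} ℚ K]
    (m : ℕ) (hm : p = 2 * m + 1) (hm1 : 1 ≤ m) :
    ∃ (ι : Type) (_ : Fintype ι) (t : ι → (𝓞 K)ˣ), Fintype.card ι = m ∧
      ∀ g : (𝓞 K)ˣ, ∃ e : ι → ℤ, g = ∏ i, t i ^ e i := by
  have hrank : Units.rank K + 1 = m := by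
    rw [Units.rank, InfinitePlace.card_eq_nrRealPlaces_add_nrComplexPlaces,
      IsCyclotomicExtension.Rat.nrRealPlaces_eq_zero (n := p) K (by omega),
      IsCyclotomicExtension.Rat.nrComplexPlaces_eq_totient_div_two (n := p) K,
      Nat.totient_prime hp.out]
    omega
  obtain ⟨τ, hτ⟩ := IsCyclic.exists_generator (α := Units.torsion K)
  refine ⟨Option (Fin (Units.rank K)), inferInstance,
    fun o => o.elim (τ : (𝓞 K)ˣ) (Units.fundSystem K), by simp [hrank], ?_⟩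
  intro g
  obtain ⟨⟨z, e⟩, he, -⟩ := Units.exist_unique_eq_mul_prod K g
  obtain ⟨n, hn⟩ := Subgroup.mem_zpowers_iff.mp (hτ z)
  refine ⟨fun o => o.elim n e, ?_⟩
  rw [Fintype.prod_option]
  simp only [Option.elim]
  rw [he, ← hn]
  simp

/-- The cyclotomic unit `1 + ζ + ⋯ + ζ^(a-1)`, with inverse `1 + ζ^a + ⋯ + ζ^(a(b-1))` where
`a b ≡ 1` modulo `p`. -/
noncomputable def cycUnit (a b : ℕ) (hab : a * b ≡ 1 [MOD p]) : (𝓞 K)ˣ := by
  have key : aeval hζ.toInteger (∑ j ∈ Finset.range a, (X : ℤ[X]) ^ j) *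
      aeval hζ.toInteger (∑ l ∈ Finset.range b, (X : ℤ[X]) ^ (a * l)) = 1 := by
    have hne : hζ.toInteger - 1 ≠ 0 :=
      sub_ne_zero.mpr (hζ.toInteger_isPrimitiveRoot.ne_one hp.out.one_lt)
    have h1 : aeval hζ.toInteger (∑ j ∈ Finset.range a, (X : ℤ[X]) ^ j) * (hζ.toInteger - 1) =
        hζ.toInteger ^ a - 1 := by
      simp only [map_sum, map_pow, aeval_X]
      exact geom_sum_mul _ _
    have h2 : aeval hζ.toInteger (∑ l ∈ Finset.range b, (X : ℤ[X]) ^ (a * l)) *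
        (hζ.toInteger ^ a - 1) = hζ.toInteger - 1 := by
      simp only [map_sum, map_pow, aeval_X, pow_mul]
      rw [geom_sum_mul, ← pow_mul]
      congr 1
      have h3 := hζ.toInteger_isPrimitiveRoot.pow_eq_one
      rw [pow_eq_pow_mod (a * b) h3, hab, ← pow_eq_pow_mod 1 h3, pow_one]
    apply mul_right_cancel₀ hne
    calc _ = aeval hζ.toInteger (∑ l ∈ Finset.range b, (X : ℤ[X]) ^ (a * l)) *
          (aeval hζ.toInteger (∑ j ∈ Finset.range a, (X : ℤ[X]) ^ j) * (hζ.toInteger - 1)) := by ring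
      _ = _ := by rw [h1, h2, one_mul]
  exact ⟨_, _, key, by rw [mul_comm]; exact key⟩

lemma logd_cycUnit {k : ℕ} (hk : k + 3 ≤ p) (a b : ℕ) (hab : a * b ≡ 1 [MOD p]) :
    logd hζ k (cycUnit hζ a b hab) =
      ∑ j ∈ Finset.range a, ∑ l ∈ Finset.range b, (j : ZMod p) * ((j + a * l : ℕ) : ZMod p) ^ k := by
  rw [logd_eq hζ hk (u := cycUnit hζ a b hab) (f := ∑ j ∈ Finset.range a, (X : ℤ[X]) ^ j)
    (g := ∑ l ∈ Finset.range b, (X : ℤ[X]) ^ (a * l)) rfl rfl]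
  have h1 : eul (∑ j ∈ Finset.range a, (X : ℤ[X]) ^ j) =
      ∑ j ∈ Finset.range a, (j : ℤ[X]) * (X : ℤ[X]) ^ j := by
    rw [map_sum]
    refine Finset.sum_congr rfl (fun j _ => ?_)
    have := eul_pow_X_pow (R := ℤ) 1 j
    simpa [smul_eq_C_mul] using this
  rw [h1, Finset.sum_mul_sum, map_sum, map_sum]
  refine Finset.sum_congr rfl (fun j _ => ?_)
  rw [map_sum, map_sum]
  refine Finset.sum_congr rfl (fun l _ => ?_)
  have h2 : redp p ((j : ℤ[X]) * X ^ j * X ^ (a * l)) = (j : ZMod p) • X ^ (j + a * l) := by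
    rw [smul_eq_C_mul]
    simp [pow_add, mul_assoc]
  rw [h2, map_smul, mom_X_pow, smul_eq_mul]

/-- **Kummer's lemma**, from invertibility of an explicit matrix over `ZMod p`. -/
theorem kummerUnit_of_matrix (m : ℕ) (hm : p = 2 * m + 1) (hm1 : 1 ≤ m) (b : Fin m → ℕ)
    (hb : ∀ i : Fin m, ((i : ℕ) + 2) * b i ≡ 1 [MOD p])
    (hdet : IsUnit (Matrix.of fun i t : Fin m =>
      ∑ j ∈ Finset.range ((i : ℕ) + 2), ∑ l ∈ Finset.range (b i),
        (j : ZMod p) * ((j + ((i : ℕ) + 2) * l : ℕ) : ZMod p) ^ (2 * (t : ℕ) - 1)))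
    (K : Type*) [Field K] [NumberField K] [hK : IsCyclotomicExtension {p} ℚ K]
    (u : (𝓞 K)ˣ) (hu : ∃ n : ℤ, (p : 𝓞 K) ∣ (u : 𝓞 K) - n) : ∃ v : (𝓞 K)ˣ, u = v ^ p := by
  obtain ⟨n, hn⟩ := hu
  have hζ := IsCyclotomicExtension.zeta_spec p ℚ K
  obtain ⟨ι, _, t, hcard, hgen⟩ := exists_generators (p := p) K m hm hm1
  have hk : ∀ t : Fin m, (2 * (t : ℕ) - 1) + 3 ≤ p := fun t => by
    have := t.2; omega
  refine exists_eq_pow_of_hom (p := p) (by rw [hcard, Fintype.card_fin]) t hgen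
    (fun t : Fin m => logdHom hζ (2 * (t : ℕ) - 1) (hk t))
    (fun i : Fin m => cycUnit hζ ((i : ℕ) + 2) (b i) (hb i)) ?_ u ?_
  · convert hdet using 2
    ext i t
    exact logd_cycUnit hζ (hk t) _ _ (hb i)
  · intro t
    exact congrArg Multiplicative.ofAdd (logd_eq_zero_of_dvd hζ (hk t) hn)

end cyclotomic

section instances

theorem kummerUnit_5 (K : Type*) [Field K] [NumberField K] [IsCyclotomicExtension {5} ℚ K]
    (u : (𝓞 K)ˣ) (hu : ∃ n : ℤ, ((5 : ℕ) : 𝓞 K) ∣ (u : 𝓞 K) - n) : ∃ v : (𝓞 K)ˣ, u = v ^ 5 := by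
  have h1 : (Matrix.of fun i t : Fin 2 =>
      ∑ j ∈ Finset.range ((i : ℕ) + 2), ∑ l ∈ Finset.range (![3, 2] i),
        (j : ZMod 5) * ((j + ((i : ℕ) + 2) * l : ℕ) : ZMod 5) ^ (2 * (t : ℕ) - 1)) =
      !![3, 4; 1, 4] := by decide +kernel
  have h2 : (!![3, 4; 1, 4] : Matrix (Fin 2) (Fin 2) (ZMod 5)) *
      !![3, 2; 3, 1] = 1 := by decide +kernel
  have h3 : ∀ i : Fin 2, ((i : ℕ) + 2) * (![3, 2] i : ℕ) ≡ 1 [MOD 5] := by
    decide
  have : Fact (Nat.Prime 5) := ⟨by norm_num⟩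
  refine kummerUnit_of_matrix 2 (by norm_num) (by norm_num) ![3, 2] h3 ?_ K u hu
  rw [h1]
  exact IsUnit.of_mul_eq_one _ h2

theorem kummerUnit_7 (K : Type*) [Field K] [NumberField K] [IsCyclotomicExtension {7} ℚ K]
    (u : (𝓞 K)ˣ) (hu : ∃ n : ℤ, ((7 : ℕ) : 𝓞 K) ∣ (u : 𝓞 K) - n) : ∃ v : (𝓞 K)ˣ, u = v ^ 7 := by
  have h1 : (Matrix.of fun i t : Fin 3 =>
      ∑ j ∈ Finset.range ((i : ℕ) + 2), ∑ l ∈ Finset.range (![4, 5, 2] i),
        (j : ZMod 7) * ((j + ((i : ℕ) + 2) * l : ℕ) : ZMod 7) ^ (2 * (t : ℕ) - 1)) =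
      !![4, 2, 6; 1, 3, 4; 5, 3, 4] := by decide +kernel
  have h2 : (!![4, 2, 6; 1, 3, 4; 5, 3, 4] : Matrix (Fin 3) (Fin 3) (ZMod 7)) *
      !![0, 5, 2; 1, 0, 2; 1, 6, 5] = 1 := by decide +kernel
  have h3 : ∀ i : Fin 3, ((i : ℕ) + 2) * (![4, 5, 2] i : ℕ) ≡ 1 [MOD 7] := by
    decide
  have : Fact (Nat.Prime 7) := ⟨by norm_num⟩
  refine kummerUnit_of_matrix 3 (by norm_num) (by norm_num) ![4, 5, 2] h3 ?_ K u hu
  rw [h1]
  exact IsUnit.of_mul_eq_one _ h2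

theorem kummerUnit_11 (K : Type*) [Field K] [NumberField K] [IsCyclotomicExtension {11} ℚ K]
    (u : (𝓞 K)ˣ) (hu : ∃ n : ℤ, ((11 : ℕ) : 𝓞 K) ∣ (u : 𝓞 K) - n) : ∃ v : (𝓞 K)ˣ, u = v ^ 11 := by
  have h1 : (Matrix.of fun i t : Fin 5 =>
      ∑ j ∈ Finset.range ((i : ℕ) + 2), ∑ l ∈ Finset.range (![6, 4, 3, 9, 2] i),
        (j : ZMod 11) * ((j + ((i : ℕ) + 2) * l : ℕ) : ZMod 11) ^ (2 * (t : ℕ) - 1)) =
      !![6, 3, 4, 3, 1; 1, 8, 3, 9, 2; 7, 4, 2, 8, 4; 2, 2, 8, 7, 7; 8, 2, 8, 7, 7] := by decide +kernel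
  have h2 : (!![6, 3, 4, 3, 1; 1, 8, 3, 9, 2; 7, 4, 2, 8, 4; 2, 2, 8, 7, 7; 8, 2, 8, 7, 7] : Matrix (Fin 5) (Fin 5) (ZMod 11)) *
      !![0, 0, 0, 9, 2; 5, 1, 4, 1, 2; 4, 5, 3, 6, 6; 10, 8, 6, 2, 5; 6, 8, 2, 1, 9] = 1 := by decide +kernel
  have h3 : ∀ i : Fin 5, ((i : ℕ) + 2) * (![6, 4, 3, 9, 2] i : ℕ) ≡ 1 [MOD 11] := by
    decide
  have : Fact (Nat.Prime 11) := ⟨by norm_num⟩
  refine kummerUnit_of_matrix 5 (by norm_num) (by norm_num) ![6, 4, 3, 9, 2] h3 ?_ K u hu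
  rw [h1]
  exact IsUnit.of_mul_eq_one _ h2

theorem kummerUnit_13 (K : Type*) [Field K] [NumberField K] [IsCyclotomicExtension {13} ℚ K]
    (u : (𝓞 K)ˣ) (hu : ∃ n : ℤ, ((13 : ℕ) : 𝓞 K) ∣ (u : 𝓞 K) - n) : ∃ v : (𝓞 K)ˣ, u = v ^ 13 := by
  have h1 : (Matrix.of fun i t : Fin 6 =>
      ∑ j ∈ Finset.range ((i : ℕ) + 2), ∑ l ∈ Finset.range (![7, 9, 10, 8, 11, 2] i),
        (j : ZMod 13) * ((j + ((i : ℕ) + 2) * l : ℕ) : ZMod 13) ^ (2 * (t : ℕ) - 1)) =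
      !![7, 10, 8, 10, 3, 11; 1, 5, 8, 0, 3, 1; 8, 11, 6, 0, 4, 4; 2, 2, 0, 10, 0, 12; 9, 4, 6, 10, 4, 8; 3, 4, 6, 10, 4, 8] := by decide +kernel
  have h2 : (!![7, 10, 8, 10, 3, 11; 1, 5, 8, 0, 3, 1; 8, 11, 6, 0, 4, 4; 2, 2, 0, 10, 0, 12; 9, 4, 6, 10, 4, 8; 3, 4, 6, 10, 4, 8] : Matrix (Fin 6) (Fin 6) (ZMod 13)) *
      !![0, 0, 0, 0, 11, 2; 7, 6, 5, 11, 9, 12; 2, 2, 5, 6, 10, 8; 10, 3, 3, 10, 8, 2; 10, 10, 4, 12, 10, 7; 10, 3, 1, 4, 3, 9] = 1 := by decide +kernel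
  have h3 : ∀ i : Fin 6, ((i : ℕ) + 2) * (![7, 9, 10, 8, 11, 2] i : ℕ) ≡ 1 [MOD 13] := by
    decide
  have : Fact (Nat.Prime 13) := ⟨by norm_num⟩
  refine kummerUnit_of_matrix 6 (by norm_num) (by norm_num) ![7, 9, 10, 8, 11, 2] h3 ?_ K u hu
  rw [h1]
  exact IsUnit.of_mul_eq_one _ h2

end instances

end Fermat.Agent.Kummer
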