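/-
Fermat's Last Theorem for an odd prime exponent `p` such that `ℤ[ζ_p]` is a PID, Kummer's unit
lemma holds and the first case is known.
-/
import Mathlib
import Fermat.Agent.Kummer.CaseTwo

set_option autoImplicit false

namespace Fermat.Agent.Kummer

open NumberField Polynomial

section Cyclo

variable {p : ℕ} [hp : Fact p.Prime] {K : Type*} [Field K] [NumberField K]
  [IsCyclotomicExtension {p} ℚ K] {ζ : K} (hζ : IsPrimitiveRoot ζ p)

/-- Every algebraic integer of `K` is an integral polynomial in `ζ`. -/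
theorem exists_aeval_eq_flt (x : 𝓞 K) : ∃ f : ℤ[X], x = aeval hζ.toInteger f := by
  obtain ⟨f, hf⟩ := hζ.integralPowerBasis.exists_eq_aeval' x
  exact ⟨f, by rwa [hζ.integralPowerBasis_gen] at hf⟩

/-- Every algebraic integer of `K` is congruent to an integer modulo `ζ - a`. -/
theorem exists_int_dvd_sub (a : ℤ) (x : 𝓞 K) : ∃ n : ℤ, hζ.toInteger - a ∣ x - n := by
  obtain ⟨f, rfl⟩ := exists_aeval_eq_flt hζ x
  refine ⟨f.eval a, ?_⟩
  have h := Polynomial.sub_dvd_eval_sub hζ.toInteger (a : 𝓞 K) (f.map (algebraMap ℤ (𝓞 K)))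
  rw [Polynomial.eval_map_algebraMap] at h
  have h2 : (f.map (algebraMap ℤ (𝓞 K))).eval (a : 𝓞 K) = ((f.eval a : ℤ) : 𝓞 K) := by
    rw [Polynomial.eval_intCast_map]
    simp
  rwa [h2] at h

theorem kData (hp2 : p ≠ 2)
    (hunit : ∀ u : (𝓞 K)ˣ, (∃ n : ℤ, (p : 𝓞 K) ∣ (u : 𝓞 K) - n) → ∃ v : (𝓞 K)ˣ, u = v ^ p) :
    KData (𝓞 K) p hζ.toInteger where
  pp := hp.out
  podd := hp2
  prim := hζ.toInteger_isPrimitiveRoot
  lamPrime := hζ.zeta_sub_one_prime'
  assoc := IsCyclotomicExtension.Rat.associated_zeta_sub_one_pow_prime p hζ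
  intCong := fun x => by simpa using exists_int_dvd_sub hζ 1 x
  dvdInt := fun n => (IsCyclotomicExtension.Rat.zeta_sub_one_dvd_intCast_iff' p hζ).mp
  kummer := hunit

end Cyclo

/-- Coprime version. -/
theorem flt_coprime (p : ℕ) [hp : Fact p.Prime] (hp2 : p ≠ 2) (K : Type*) [Field K] [NumberField K]
    [IsCyclotomicExtension {p} ℚ K] (hpid : IsPrincipalIdealRing (𝓞 K))
    (hunit : ∀ u : (𝓞 K)ˣ, (∃ n : ℤ, (p : 𝓞 K) ∣ (u : 𝓞 K) - n) → ∃ v : (𝓞 K)ˣ, u = v ^ p)
    (hone : ∀ x y z : ℤ, x ^ p + y ^ p + z ^ p = 0 → (p : ℤ) ∣ x * y * z)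
    (x y z : ℤ) (hx : x ≠ 0) (hy : y ≠ 0) (hz : z ≠ 0) (hxy : IsCoprime x y)
    (h : x ^ p + y ^ p + z ^ p = 0) : False := by
  have hζ := IsCyclotomicExtension.zeta_spec p ℚ K
  have hK := kData hζ hp2 hunit
  have hinj : Function.Injective (Int.cast : ℤ → 𝓞 K) := Int.cast_injective
  have hodd : Odd p := hp.out.odd_of_ne_two hp2
  have hppr : Prime (p : ℤ) := Nat.prime_iff_prime_int.mp hp.out
  have hp0 : p ≠ 0 := hp.out.ne_zero
  have hxz : IsCoprime x z := by
    have h1 : IsCoprime (x ^ p) (y ^ p) := hxy.pow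
    have h2 : z ^ p = -(y ^ p + x ^ p * 1) := by linear_combination h
    have h3 : IsCoprime (x ^ p) (z ^ p) := by
      rw [h2, IsCoprime.neg_right_iff]
      exact h1.add_mul_left_right 1
    exact (IsCoprime.pow_iff hp.out.pos hp.out.pos).mp h3
  have hyz : IsCoprime y z := by
    have h1 : IsCoprime (y ^ p) (x ^ p) := hxy.symm.pow
    have h2 : z ^ p = -(x ^ p + y ^ p * 1) := by linear_combination h
    have h3 : IsCoprime (y ^ p) (z ^ p) := by
      rw [h2, IsCoprime.neg_right_iff]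
      exact h1.add_mul_left_right 1
    exact (IsCoprime.pow_iff hp.out.pos hp.out.pos).mp h3
  rcases hppr.dvd_or_dvd (hone x y z h) with h1 | h1
  · rcases hppr.dvd_or_dvd h1 with h2 | h2
    · refine hK.caseTwo hinj y z (-x) hyz (neg_ne_zero.mpr hx) (by rwa [dvd_neg]) ?_
      rw [hodd.neg_pow]; linear_combination h
    · refine hK.caseTwo hinj x z (-y) hxz (neg_ne_zero.mpr hy) (by rwa [dvd_neg]) ?_
      rw [hodd.neg_pow]; linear_combination h
  · refine hK.caseTwo hinj x y (-z) hxy (neg_ne_zero.mpr hz) (by rwa [dvd_neg]) ?_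
    rw [hodd.neg_pow]; linear_combination h

end Fermat.Agent.Kummer
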