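/-
The ring of integers of `ℚ(ζ₁₁)` is a PID.
-/
import Mathlib
import Fermat.Agent.Kummer.FLT

set_option autoImplicit false
set_option linter.unusedSectionVars false

namespace Fermat.Agent.Kummer

open NumberField Polynomial Ideal

section Generic

variable {p : ℕ} [hp : Fact p.Prime] {K : Type*} [Field K] [NumberField K]
  [IsCyclotomicExtension {p} ℚ K] {ζ : K} (hζ : IsPrimitiveRoot ζ p)

theorem minpoly_toInteger : minpoly ℤ hζ.toInteger = cyclotomic p ℤ := by
  rw [cyclotomic_eq_minpoly hζ hp.out.pos]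
  exact (RingOfIntegers.minpoly_coe hζ.toInteger).symm

/-- The ring homomorphism `ℤ[ζ] → A` with `ζ ↦ a`, for a root `a` of `Φ_p` in `A`. -/
theorem exists_hom {A : Type*} [CommRing A] (a : A)
    (ha : (cyclotomic p A).eval a = 0) : ∃ φ : 𝓞 K →+* A, φ hζ.toInteger = a := by
  have h : aeval a (minpoly ℤ hζ.integralPowerBasis.gen) = 0 := by
    rw [hζ.integralPowerBasis_gen, minpoly_toInteger, aeval_def, eval₂_eq_eval_map, map_cyclotomic,
      ha]
  refine ⟨(hζ.integralPowerBasis.lift a h : 𝓞 K →ₐ[ℤ] A), ?_⟩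
  have := hζ.integralPowerBasis.lift_gen a h
  rwa [hζ.integralPowerBasis_gen] at this

/-- An explicit principal prime above `q`. -/
theorem exists_principal_primesOver {q : ℕ} (hq : q.Prime) (a : ℤ)
    (ha : (cyclotomic p (ZMod q)).eval (a : ZMod q) = 0) (α : 𝓞 K)
    (hα : ∀ φ : 𝓞 K →+* ZMod q, φ hζ.toInteger = a → φ α = 0)
    (h1 : α ∣ (q : 𝓞 K)) (h2 : α ∣ hζ.toInteger - a) :
    ∃ P ∈ primesOver (span {(q : ℤ)}) (𝓞 K), Submodule.IsPrincipal P := by
  have : Fact q.Prime := ⟨hq⟩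
  obtain ⟨φ, hφ⟩ := exists_hom hζ (a : ZMod q) ha
  have hker : RingHom.ker φ = span {α} := by
    apply le_antisymm
    · intro x hx
      rw [RingHom.mem_ker] at hx
      rw [mem_span_singleton]
      obtain ⟨n, hn⟩ := exists_int_dvd_sub hζ a x
      have h3 : φ (x - n) = 0 := by
        obtain ⟨t, ht⟩ := hn
        rw [ht, map_mul, map_sub, hφ, map_intCast, sub_self, zero_mul]
      rw [map_sub, hx, map_intCast, zero_sub, neg_eq_zero, ZMod.intCast_zmod_eq_zero_iff_dvd] at h3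
      obtain ⟨k, rfl⟩ := h3
      have h4 : α ∣ (((q : ℤ) * k : ℤ) : 𝓞 K) := by
        push_cast
        exact h1.mul_right _
      have h5 := dvd_add (h2.trans hn) h4
      simpa using h5
    · rw [span_singleton_le_iff_mem, RingHom.mem_ker]
      exact hα φ hφ
  refine ⟨RingHom.ker φ, ⟨RingHom.ker_isPrime φ, ?_⟩, ?_⟩
  · rw [liesOver_iff]
    have hmax : (span {(q : ℤ)}).IsMaximal := Int.ideal_span_isMaximal_of_prime q
    refine hmax.eq_of_le ?_ ?_
    · exact (RingHom.ker_isPrime φ |>.under ℤ).ne_top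
    · rw [span_singleton_le_iff_mem, mem_comap, algebraMap_int_eq, RingHom.mem_ker]
      simp
  · rw [hker]
    exact ⟨⟨α, rfl⟩⟩

end Generic

variable (K : Type*) [Field K] [NumberField K] [hK : IsCyclotomicExtension {11} ℚ K]

open Nat Real InfinitePlace in
theorem minkowski_11 : ⌊((4 / π) ^ nrComplexPlaces K *
    ((Module.finrank ℚ K)! / (Module.finrank ℚ K) ^ (Module.finrank ℚ K) * √|discr K|))⌋₊ ≤ 60 := by
  have : Fact (Nat.Prime 11) := ⟨by norm_num⟩
  have h1 : Module.finrank ℚ K = 10 := by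
    rw [IsCyclotomicExtension.Rat.finrank 11 K, totient_prime this.out]
  have h2 : nrComplexPlaces K = 5 := by
    rw [IsCyclotomicExtension.Rat.nrComplexPlaces_eq_totient_div_two 11, totient_prime this.out]
  have h3 : ((discr K : ℤ) : ℝ) = - 11 ^ 9 := by
    rw [IsCyclotomicExtension.Rat.discr_prime 11 K]
    norm_num
  rw [h1, h2, h3]
  have h4 : |(-11 ^ 9 : ℝ)| = 11 ^ 9 := by rw [abs_neg, abs_of_pos (by positivity)]
  rw [h4]
  have h5 : √(11 ^ 9 : ℝ) < 48559 := by
    rw [Real.sqrt_lt' (by norm_num)]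
    norm_num
  have h6 : (4 / π) ^ 5 < 3.355 := by
    have : 4 / π < 4 / 3.14 := by
      gcongr
      exact pi_gt_d2
    calc (4 / π) ^ 5 < (4 / 3.14) ^ 5 := by gcongr
      _ < 3.355 := by norm_num
  have h7 : ((10 ! : ℕ) : ℝ) = 3628800 := by
    norm_num [Nat.factorial]
  rw [h7]
  apply Nat.le_of_lt_succ
  rw [Nat.floor_lt (by positivity)]
  calc (4 / π) ^ 5 * (3628800 / ((10 : ℕ) : ℝ) ^ 10 * √(11 ^ 9))
      ≤ 3.355 * (3628800 / ((10 : ℕ) : ℝ) ^ 10 * 48559) := by gcongr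
    _ < _ := by norm_num

theorem primePow_cong_11 {q f : ℕ} (hq : q.Prime) (hf : f ≠ 0) (h1 : q ^ f ≤ 60)
    (h2 : q ^ f % 11 = 1) : q = 23 := by
  have key : ∀ {r : ℕ}, r.Prime → r ∣ q ^ f → r = q := fun {r} hr hd =>
    (Nat.prime_dvd_prime_iff_eq hr hq).mp (hr.dvd_of_dvd_pow hd)
  have hgt : 1 < q ^ f := Nat.one_lt_pow hf hq.one_lt
  have h3 : q ^ f = 12 ∨ q ^ f = 23 ∨ q ^ f = 34 ∨ q ^ f = 45 ∨ q ^ f = 56 := by omega
  rcases h3 with h | h | h | h | h
  · have a := key (r := 2) (by norm_num) (by rw [h]; norm_num)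
    have b := key (r := 3) (by norm_num) (by rw [h]; norm_num)
    omega
  · exact (key (r := 23) (by norm_num) (by rw [h])).symm
  · have a := key (r := 2) (by norm_num) (by rw [h]; norm_num)
    have b := key (r := 17) (by norm_num) (by rw [h]; norm_num)
    omega
  · have a := key (r := 3) (by norm_num) (by rw [h]; norm_num)
    have b := key (r := 5) (by norm_num) (by rw [h]; norm_num)
    omega
  · have a := key (r := 2) (by norm_num) (by rw [h]; norm_num)
    have b := key (r := 7) (by norm_num) (by rw [h]; norm_num)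
    omega

theorem aux_11_23 : ∑ i ∈ Finset.range 11, ((13 : ℤ) : ZMod 23) ^ i = 0 := by decide

theorem aux_11_23' : 1 - ((13 : ℤ) : ZMod 23) + ((13 : ℤ) : ZMod 23) ^ 3 = 0 := by decide

theorem pid_11 : IsPrincipalIdealRing (𝓞 K) := by
  have : Fact (Nat.Prime 11) := ⟨by norm_num⟩
  have : IsGalois ℚ K := IsCyclotomicExtension.isGalois {11} ℚ K
  have hζ := IsCyclotomicExtension.zeta_spec 11 ℚ K
  apply RingOfIntegers.isPrincipalIdealRing_of_isPrincipal_of_lt_or_isPrincipal_of_mem_primesOver_of_mem_Icc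
  intro q hq hqp
  have hB := minkowski_11 K
  have : Fact q.Prime := ⟨hqp⟩
  by_cases h11 : q = 11
  · subst h11
    refine ⟨span {hζ.toInteger - 1}, ⟨inferInstance, ?_⟩, Or.inr ⟨⟨_, rfl⟩⟩⟩
    exact IsCyclotomicExtension.Rat.liesOver_span_zeta_sub_one 11 0 (by simpa only [zero_add, pow_one] using hζ)
  by_cases h23 : q = 23
  · subst h23
    have hz : 1 + hζ.toInteger + hζ.toInteger ^ 2 + hζ.toInteger ^ 3 + hζ.toInteger ^ 4 +
        hζ.toInteger ^ 5 + hζ.toInteger ^ 6 + hζ.toInteger ^ 7 + hζ.toInteger ^ 8 +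
        hζ.toInteger ^ 9 + hζ.toInteger ^ 10 = 0 := by
      have := hζ.toInteger_isPrimitiveRoot.geom_sum_eq_zero (by norm_num)
      simpa [Finset.sum_range_succ] using this
    obtain ⟨P, hP1, hP2⟩ := exists_principal_primesOver hζ (q := 23) (by norm_num) 13
      (by
        rw [cyclotomic_prime, eval_geom_sum]
        exact aux_11_23)
      (1 - hζ.toInteger + hζ.toInteger ^ 3)
      (by
        intro φ hφ
        rw [map_add, map_sub, map_pow, map_one, hφ]
        exact aux_11_23')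
      (by
        generalize hζ.toInteger = z at hz
        refine ⟨(8) + (-2)*z^1 + (-1)*z^2 + (-8)*z^3 + (-5)*z^4 + (-3)*z^5 + (6)*z^6 + (12)*z^7
          + (16)*z^8 + (11)*z^9, ?_⟩
        push_cast
        linear_combination -((-15) + (5)*z^1 + (11)*z^2) * hz)
      (by
        generalize hζ.toInteger = z at hz
        refine ⟨(-5) + (1)*z^1 + (4)*z^3 + (2)*z^4 + (1)*z^5 + (-4)*z^6 + (-7)*z^7 + (-9)*z^8
          + (-6)*z^9, ?_⟩
        push_cast
        linear_combination -((8) + (-3)*z^1 + (-6)*z^2) * hz)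
    exact ⟨P, hP1, Or.inr hP2⟩
  obtain ⟨⟨P, hP1, hP2⟩⟩ := (span {(q : ℤ)}).nonempty_primesOver (S := 𝓞 K)
  refine ⟨P, ⟨hP1, hP2⟩, Or.inl ?_⟩
  have hnd : ¬ q ∣ 11 := fun h => h11 ((Nat.prime_dvd_prime_iff_eq hqp (by norm_num)).mp h)
  have hdeg := IsCyclotomicExtension.Rat.inertiaDeg_eq_of_not_dvd (m := 11) q K P hnd
  rw [hdeg]
  by_contra hcon
  have hle : q ^ orderOf (q : ZMod 11) ≤ 60 := (not_lt.mp hcon).trans hB
  refine h23 (primePow_cong_11 hqp ?_ hle ?_)
  · rw [← hdeg]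
    have hmax : (span {(q : ℤ)}).IsMaximal := Int.ideal_span_isMaximal_of_prime q
    have : P.IsMaximal := .of_liesOver_isMaximal P (span {(q : ℤ)})
    exact (inertiaDeg_pos ..).ne'
  · have h1 : ((q ^ orderOf (q : ZMod 11) : ℕ) : ZMod 11) = (1 : ℕ) := by
      push_cast
      exact pow_orderOf_eq_one _
    rw [ZMod.natCast_eq_natCast_iff'] at h1
    simpa using h1

end Fermat.Agent.Kummer
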