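import Mathlib

/-!
# Criteria for cyclotomic rings of integers of prime level to be principal
-/

set_option autoImplicit false

namespace Fermat.Agent.Kummer

open NumberField Ideal IsCyclotomicExtension.Rat Polynomial

theorem order_facts (p q : ℕ) [hp : Fact p.Prime] (hq : q.Prime) (hqp : q ≠ p) :
    0 < orderOf (q : ZMod p) ∧ q ^ orderOf (q : ZMod p) % p = 1 := by
  have hne : (q : ZMod p) ≠ 0 := by
    rw [Ne, ZMod.natCast_eq_zero_iff]
    exact fun h => hqp.symm ((Nat.prime_dvd_prime_iff_eq hp.out hq).mp h)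
  constructor
  · rw [orderOf_pos_iff, isOfFinOrder_iff_pow_eq_one]
    exact ⟨p - 1, Nat.sub_pos_of_lt hp.out.one_lt, ZMod.pow_card_sub_one_eq_one hne⟩
  · have h1 : (q : ZMod p) ^ orderOf (q : ZMod p) = 1 := pow_orderOf_eq_one _
    rw [← Nat.cast_pow, ← Nat.cast_one (R := ZMod p), ZMod.natCast_eq_natCast_iff] at h1
    rw [h1, Nat.mod_eq_of_lt hp.out.one_lt]

section General

variable (p : ℕ) [hp : Fact p.Prime] (K : Type*) [Field K] [NumberField K]
  [hK : IsCyclotomicExtension {p} ℚ K]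

theorem pid_of_bound (B : ℕ)
    (hB : (4 / Real.pi) ^ (InfinitePlace.nrComplexPlaces K) *
      (((Module.finrank ℚ K).factorial : ℝ) / (Module.finrank ℚ K) ^ (Module.finrank ℚ K) *
        √|(discr K : ℝ)|) < B + 1)
    (h : ∀ q ≤ B, q.Prime → q ≠ p → q ^ orderOf (q : ZMod p) ≤ B →
      ∃ P ∈ primesOver (span {(q : ℤ)}) (𝓞 K), Submodule.IsPrincipal P) :
    IsPrincipalIdealRing (𝓞 K) := by
  have hgal : IsGalois ℚ K := IsCyclotomicExtension.isGalois {p} ℚ K
  apply RingOfIntegers.isPrincipalIdealRing_of_isPrincipal_of_lt_or_isPrincipal_of_mem_primesOver_of_mem_Icc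
  intro q hq hqp
  have hB' : ⌊(4 / Real.pi) ^ (InfinitePlace.nrComplexPlaces K) *
      (((Module.finrank ℚ K).factorial : ℝ) / (Module.finrank ℚ K) ^ (Module.finrank ℚ K) *
        √|(discr K : ℝ)|)⌋₊ ≤ B := by
    apply Nat.le_of_lt_succ
    rw [Nat.floor_lt']
    · push_cast; exact hB
    · omega
  have hqB : q ≤ B := (Finset.mem_Icc.mp hq).2.trans hB'
  have : Fact q.Prime := ⟨hqp⟩
  by_cases hqp' : q = p
  · subst hqp'
    have hζ := IsCyclotomicExtension.zeta_spec q ℚ K
    refine ⟨span {hζ.toInteger - 1}, ?_, Or.inr ⟨_, rfl⟩⟩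
    obtain ⟨⟨P, hP1, hP2⟩⟩ := (span {(q : ℤ)}).nonempty_primesOver (S := 𝓞 K)
    have := eq_span_zeta_sub_one_of_liesOver' q K hζ P
    rw [← this]
    exact ⟨hP1, hP2⟩
  · by_cases hle : q ^ orderOf (q : ZMod p) ≤ B
    · obtain ⟨P, hP, hP'⟩ := h q hqB hqp hqp' hle
      exact ⟨P, hP, Or.inr hP'⟩
    · obtain ⟨⟨P, hP1, hP2⟩⟩ := (span {(q : ℤ)}).nonempty_primesOver (S := 𝓞 K)
      refine ⟨P, ⟨hP1, hP2⟩, Or.inl ?_⟩
      have : NeZero p := ⟨hp.out.ne_zero⟩
      rw [inertiaDeg_eq_of_not_dvd q K P (m := p)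
        (fun hd => hqp' ((Nat.prime_dvd_prime_iff_eq hqp hp.out).mp hd))]
      exact lt_of_le_of_lt hB' (not_le.mp hle)

variable {p K}

/-- Evaluation of `ζ` at a root of the cyclotomic polynomial in a ring `S`. -/
theorem exists_ringHom_of_root {ζ : K} (hζ : IsPrimitiveRoot ζ p) {S : Type*} [CommRing S]
    (a : S) (ha : ∑ i ∈ Finset.range p, a ^ i = 0) :
    ∃ f : 𝓞 K →+* S, f hζ.toInteger = a := by
  have hroot : aeval a (minpoly ℤ hζ.integralPowerBasis.gen) = 0 := by
    rw [hζ.integralPowerBasis_gen]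
    have : minpoly ℤ hζ.toInteger = cyclotomic p ℤ := by
      rw [Polynomial.cyclotomic_eq_minpoly hζ hp.out.pos]
      have := minpoly.algebraMap_eq (A := ℤ) (B := 𝓞 K) (B' := K)
        (FaithfulSMul.algebraMap_injective (𝓞 K) K) hζ.toInteger
      rw [← this]
      rfl
    rw [this, Polynomial.cyclotomic_prime]
    simpa using ha
  exact ⟨(hζ.integralPowerBasis.lift a hroot).toRingHom, by
    have := hζ.integralPowerBasis.lift_gen a hroot
    rw [hζ.integralPowerBasis_gen] at this
    exact this⟩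

/-- Every element of the ring of integers is a polynomial in `ζ`. -/
theorem exists_aeval_eq {ζ : K} (hζ : IsPrimitiveRoot ζ p) (x : 𝓞 K) :
    ∃ G : ℤ[X], x = aeval hζ.toInteger G := by
  have := adjoin_singleton_eq_top hζ
  have hx : x ∈ Algebra.adjoin ℤ {hζ.toInteger} := by rw [this]; trivial
  rw [Algebra.adjoin_singleton_eq_range_aeval] at hx
  obtain ⟨G, hG⟩ := hx
  exact ⟨G, hG.symm⟩

/-- Criterion for the existence of a principal prime over `q`: an element `α` dividing `q` and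
`g(ζ)`, where `g` is monic of degree at most the order of `q` modulo `p`. -/
theorem exists_principal_of_monic {ζ : K} (hζ : IsPrimitiveRoot ζ p) (q : ℕ) [hq : Fact q.Prime]
    (hqp : q ≠ p) (g : ℤ[X]) (hg : g.Monic) (hdeg : g.natDegree ≤ orderOf (q : ZMod p))
    (α β γ : 𝓞 K) (h1 : α * β = q) (h2 : α * γ = aeval hζ.toInteger g) (hα : ¬ IsUnit α) :
    ∃ P ∈ primesOver (span {(q : ℤ)}) (𝓞 K), Submodule.IsPrincipal P := by
  have hne : span {α} ≠ ⊤ := by rwa [Ne, span_singleton_eq_top]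
  obtain ⟨P, hPmax, hle⟩ := exists_le_maximal (span {α}) hne
  have hPprime : P.IsPrime := hPmax.isPrime
  have hαP : α ∈ P := hle (mem_span_singleton_self α)
  have hqP : (q : 𝓞 K) ∈ P := by rw [← h1]; exact P.mul_mem_right _ hαP
  have hlies : P.LiesOver (span {(q : ℤ)}) := by
    rw [liesOver_iff]
    refine IsMaximal.eq_of_le (Int.ideal_span_isMaximal_of_prime q) IsPrime.ne_top' ?_
    rw [span_singleton_le_iff_mem, mem_comap, algebraMap_int_eq, map_natCast]
    exact hqP
  refine ⟨P, ⟨hPprime, hlies⟩, ?_⟩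
  have : NeZero p := ⟨hp.out.ne_zero⟩
  have hcardP : Nat.card (𝓞 K ⧸ P) = q ^ orderOf (q : ZMod p) := by
    have h3 := pow_inertiaDeg q P
    rw [inertiaDeg_eq_of_not_dvd q K P (m := p)
      (fun hd => hqp ((Nat.prime_dvd_prime_iff_eq hq.out hp.out).mp hd))] at h3
    rw [h3, absNorm_apply, Submodule.cardQuot_apply]
  -- the quotient by `α` is small
  let φ : (Fin g.natDegree → ZMod q) → (𝓞 K ⧸ span {α}) := fun c =>
    ∑ i, Ideal.Quotient.mk (span {α}) (((c i).val : 𝓞 K) * hζ.toInteger ^ (i : ℕ))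
  have hq0 : Ideal.Quotient.mk (span {α}) (q : 𝓞 K) = 0 := by
    rw [Ideal.Quotient.eq_zero_iff_mem, ← h1]
    exact Ideal.mul_mem_right _ _ (mem_span_singleton_self α)
  have hg0 : Ideal.Quotient.mk (span {α}) (aeval hζ.toInteger g) = 0 := by
    rw [Ideal.Quotient.eq_zero_iff_mem, ← h2]
    exact Ideal.mul_mem_right _ _ (mem_span_singleton_self α)
  have hφ : Function.Surjective φ := by
    intro x
    obtain ⟨x, rfl⟩ := Ideal.Quotient.mk_surjective x
    obtain ⟨G, rfl⟩ := exists_aeval_eq hζ x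
    refine ⟨fun i => ((G %ₘ g).coeff i : ZMod q), ?_⟩
    have hdecomp : aeval hζ.toInteger G = aeval hζ.toInteger (G %ₘ g) +
        aeval hζ.toInteger g * aeval hζ.toInteger (G /ₘ g) := by
      rw [← map_mul, ← map_add, modByMonic_add_div G g]
    rw [hdecomp, map_add, map_mul, hg0, zero_mul, add_zero]
    have hlt : (G %ₘ g).natDegree < g.natDegree ∨ g.natDegree = 0 := by
      by_cases h0 : g.natDegree = 0
      · exact Or.inr h0
      · left
        refine natDegree_modByMonic_lt G hg ?_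
        rintro rfl
        simp at h0
    rcases hlt with hlt | h0
    · rw [aeval_eq_sum_range' hlt, map_sum, ← Fin.sum_univ_eq_sum_range
        (fun i => Ideal.Quotient.mk (span {α}) ((G %ₘ g).coeff i • hζ.toInteger ^ i)) g.natDegree]
      refine Finset.sum_congr rfl fun i _ => ?_
      rw [zsmul_eq_mul, map_mul, map_mul]
      congr 1
      have hz : ((q : ℤ)) ∣ ((((G %ₘ g).coeff i : ZMod q)).val : ℤ) - (G %ₘ g).coeff i := by
        rw [← ZMod.intCast_zmod_eq_zero_iff_dvd]
        push_cast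
        rw [ZMod.natCast_val, ZMod.cast_id', id]
        simp
      obtain ⟨k, hk⟩ := hz
      have hk' : ((((G %ₘ g).coeff i : ZMod q)).val : 𝓞 K) = ((G %ₘ g).coeff i : 𝓞 K) +
          (q : 𝓞 K) * (k : 𝓞 K) := by
        have := congrArg (Int.cast : ℤ → 𝓞 K) hk
        push_cast at this
        linear_combination this
      rw [hk', map_add, map_mul, hq0, zero_mul, add_zero]
    · have hg1 : g = 1 := by
        exact hg.natDegree_eq_zero.mp h0
      subst hg1
      exfalso
      apply hne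
      rw [Ideal.eq_top_iff_one]
      rw [← Ideal.Quotient.eq_zero_iff_mem]
      simpa using hg0
  have hfin : Finite (𝓞 K ⧸ span {α}) := Finite.of_surjective φ hφ
  have hcard : Nat.card (𝓞 K ⧸ span {α}) ≤ q ^ g.natDegree := by
    have := Nat.card_le_card_of_surjective φ hφ
    rwa [Nat.card_pi, Finset.prod_const, Finset.card_univ, Fintype.card_fin, Nat.card_zmod] at this
  have hfac : Function.Surjective (Ideal.Quotient.factor hle) := Ideal.Quotient.factor_surjective hle
  have hcard2 : Nat.card (𝓞 K ⧸ span {α}) ≤ Nat.card (𝓞 K ⧸ P) := by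
    rw [hcardP]
    exact hcard.trans (Nat.pow_le_pow_right hq.out.pos hdeg)
  have hbij : Function.Bijective (Ideal.Quotient.factor hle) := by
    exact Function.Surjective.bijective_of_nat_card_le hfac hcard2
  have hPle : P ≤ span {α} := by
    intro x hx
    rw [← Ideal.Quotient.eq_zero_iff_mem]
    apply hbij.1
    rw [Ideal.Quotient.factor_mk, map_zero]
    exact Ideal.Quotient.eq_zero_iff_mem.mpr hx
  exact ⟨α, le_antisymm hPle hle⟩

end General

end Fermat.Agent.Kummer
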