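import Mathlib

/-!
# Logarithmic derivatives of units of prime cyclotomic fields

For a unit `u = f(ζ)` with inverse `g(ζ)`, the quantities `mom k (X f' g)` modulo `p` are
well-defined for `k ≤ p - 3`; they are additive in `u`.
-/

set_option autoImplicit false

open Polynomial NumberField

namespace Fermat.Agent.Kummer

section functional

variable {R : Type*} [CommRing R]

/-- The Euler derivation `X d/dX`. -/
noncomputable def eul : R[X] →ₗ[R] R[X] := (LinearMap.mulLeft R X) ∘ₗ derivative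

lemma eul_apply (f : R[X]) : eul f = X * derivative f := rfl

lemma eul_mul (f g : R[X]) : eul (f * g) = eul f * g + f * eul g := by
  simp only [eul_apply, derivative_mul]; ring

/-- `mom k (∑ aₙ Xⁿ) = ∑ aₙ nᵏ`. -/
noncomputable def mom (k : ℕ) : R[X] →ₗ[R] R := (leval 1) ∘ₗ (eul ^ k)

lemma mom_apply (k : ℕ) (f : R[X]) : mom k f = ((eul ^ k) f).eval 1 := rfl

lemma eul_pow_X_pow (k n : ℕ) : (eul ^ k) (X ^ n : R[X]) = (n : R) ^ k • (X ^ n : R[X]) := by
  induction k with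
  | zero => simp
  | succ k ih =>
    rw [pow_succ', Module.End.mul_apply, ih, map_smul, eul_apply, derivative_X_pow,
      pow_succ, mul_smul]
    congr 1
    rcases n with _ | n
    · simp
    · simp only [Nat.cast_add, Nat.cast_one, Nat.add_sub_cancel, smul_eq_C_mul, map_add,
        map_natCast, map_one]
      ring

lemma mom_X_pow (k n : ℕ) : mom k (X ^ n : R[X]) = (n : R) ^ k := by
  rw [mom_apply, eul_pow_X_pow]; simp

lemma dvd_eul {n : ℕ} {f : R[X]} (h : (X - 1) ^ (n + 1) ∣ f) : (X - 1) ^ n ∣ eul f := by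
  obtain ⟨g, rfl⟩ := h
  rw [eul_mul, pow_succ, eul_mul]
  have h1 : (X - 1 : R[X]) ^ n ∣ (X - 1) * eul ((X - 1 : R[X]) ^ n) := by
    rw [eul_apply, derivative_pow]
    rcases n with _ | n
    · simp
    · rw [Nat.add_sub_cancel]
      refine ⟨X * C ((n + 1 : ℕ) : R) * derivative (X - 1), ?_⟩
      ring
  refine dvd_add ?_ ?_
  · refine Dvd.dvd.mul_right (dvd_add ?_ (dvd_mul_right _ _)) _
    rw [mul_comm]; exact h1
  · exact Dvd.dvd.mul_right (dvd_mul_right _ _) _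

lemma dvd_eul_pow {n k : ℕ} {f : R[X]} (h : (X - 1) ^ (n + k) ∣ f) :
    (X - 1) ^ n ∣ (eul ^ k) f := by
  induction k generalizing f with
  | zero => simpa using h
  | succ k ih =>
    rw [pow_succ, Module.End.mul_apply]
    exact ih (dvd_eul h)

lemma mom_eq_zero_of_dvd {n k : ℕ} (hk : k < n) {f : R[X]} (h : (X - 1) ^ n ∣ f) :
    mom k f = 0 := by
  obtain ⟨m, rfl⟩ : ∃ m, n = (m + 1) + k := ⟨n - k - 1, by omega⟩
  obtain ⟨g, hg⟩ := dvd_eul_pow h
  rw [mom_apply, hg, pow_succ]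
  simp

lemma map_eul {S : Type*} [CommRing S] (φ : R →+* S) (f : R[X]) :
    (eul f).map φ = eul (f.map φ) := by
  simp [eul_apply, derivative_map]

end functional

section cyclotomic

/-- reduction modulo `p` -/
noncomputable abbrev redp (p : ℕ) : ℤ[X] →+* (ZMod p)[X] := mapRingHom (Int.castRingHom (ZMod p))

lemma redp_cyclotomic (p : ℕ) [Fact p.Prime] : redp p (cyclotomic p ℤ) = (X - 1) ^ (p - 1) := by
  have := cyclotomic_mul_prime_pow_eq (ZMod p) (p := p) (m := 1)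
    (by simpa using (Fact.out : p.Prime).one_lt.ne') (k := 1) one_pos
  simpa using this

variable {p : ℕ} [hp : Fact p.Prime] {K : Type*} [Field K] [NumberField K]
  [hK : IsCyclotomicExtension {p} ℚ K] {ζ : K} (hζ : IsPrimitiveRoot ζ p)

include hζ in
lemma aeval_surjective : Function.Surjective (aeval (R := ℤ) hζ.toInteger : ℤ[X] → 𝓞 K) := by
  intro x
  have h := IsCyclotomicExtension.Rat.adjoin_singleton_eq_top hζ
  have hx : x ∈ Algebra.adjoin ℤ {hζ.toInteger} := by rw [h]; trivial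
  rw [Algebra.adjoin_singleton_eq_range_aeval] at hx
  exact hx

omit hK in
include hζ in
lemma cyclotomic_dvd_of_aeval_eq_zero {f : ℤ[X]} (hf : aeval hζ.toInteger f = 0) :
    cyclotomic p ℤ ∣ f := by
  have h1 : minpoly ℤ hζ.toInteger ∣ f := minpoly.isIntegrallyClosed_dvd
    (RingOfIntegers.isIntegral _) hf
  have h2 : minpoly ℤ hζ.toInteger = minpoly ℤ ζ := by
    rw [← RingOfIntegers.minpoly_coe]; rfl
  rwa [h2, ← cyclotomic_eq_minpoly hζ hp.out.pos] at h1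

omit hK in
include hζ in
/-- The functional on pairs `(f, g)`: `mom k (X f' g)` mod `p`. -/
lemma mom_eul_mul_congr {f₁ f₂ g₁ g₂ : ℤ[X]}
    (hf : aeval hζ.toInteger f₁ = aeval hζ.toInteger f₂)
    (hg : aeval hζ.toInteger g₁ = aeval hζ.toInteger g₂) {k : ℕ} (hk : k + 3 ≤ p) :
    mom k (redp p (eul f₁ * g₁)) = mom k (redp p (eul f₂ * g₂)) := by
  obtain ⟨h, hh⟩ := cyclotomic_dvd_of_aeval_eq_zero hζ (f := f₁ - f₂) (by simp [hf])
  obtain ⟨h', hh'⟩ := cyclotomic_dvd_of_aeval_eq_zero hζ (f := g₁ - g₂) (by simp [hg])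
  rw [← sub_eq_zero, ← map_sub, ← map_sub]
  refine mom_eq_zero_of_dvd (n := p - 2) (by omega) ?_
  have h1 : eul f₁ * g₁ - eul f₂ * g₂ = eul (f₁ - f₂) * g₁ + eul f₂ * (g₁ - g₂) := by
    rw [map_sub]; ring
  rw [h1, hh, hh', RingHom.map_add, RingHom.map_mul, RingHom.map_mul,
    RingHom.map_mul (redp p) (cyclotomic p ℤ) h', redp_cyclotomic]
  have h2 : redp p (eul (cyclotomic p ℤ * h)) = eul ((X - 1) ^ (p - 1) * redp p h) := by
    rw [← redp_cyclotomic p, ← RingHom.map_mul]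
    exact map_eul _ _
  rw [h2]
  refine dvd_add (Dvd.dvd.mul_right (dvd_eul ?_) _) (Dvd.dvd.mul_left (Dvd.dvd.mul_right ?_ _) _)
  · rw [show p - 2 + 1 = p - 1 by omega]; exact dvd_mul_right _ _
  · exact pow_dvd_pow _ (by omega)

/-- A polynomial representative of an algebraic integer. -/
noncomputable def rep (x : 𝓞 K) : ℤ[X] := Function.surjInv (aeval_surjective hζ) x

lemma aeval_rep (x : 𝓞 K) : aeval hζ.toInteger (rep hζ x) = x :=
  Function.surjInv_eq (aeval_surjective hζ) x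

/-- The logarithmic derivative functional. -/
noncomputable def logd (k : ℕ) (u : (𝓞 K)ˣ) : ZMod p :=
  mom k (redp p (eul (rep hζ (u : 𝓞 K)) * rep hζ ((u⁻¹ : (𝓞 K)ˣ) : 𝓞 K)))

lemma logd_eq {k : ℕ} (hk : k + 3 ≤ p) {u : (𝓞 K)ˣ} {f g : ℤ[X]}
    (hf : aeval hζ.toInteger f = (u : 𝓞 K))
    (hg : aeval hζ.toInteger g = ((u⁻¹ : (𝓞 K)ˣ) : 𝓞 K)) :
    logd hζ k u = mom k (redp p (eul f * g)) :=
  mom_eul_mul_congr hζ (by rw [aeval_rep, hf]) (by rw [aeval_rep, hg]) hk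

lemma logd_mul {k : ℕ} (hk : k + 3 ≤ p) (u v : (𝓞 K)ˣ) :
    logd hζ k (u * v) = logd hζ k u + logd hζ k v := by
  set fu := rep hζ (u : 𝓞 K) with hfu
  set gu := rep hζ ((u⁻¹ : (𝓞 K)ˣ) : 𝓞 K) with hgu
  set fv := rep hζ (v : 𝓞 K) with hfv
  set gv := rep hζ ((v⁻¹ : (𝓞 K)ˣ) : 𝓞 K) with hgv
  have afu : aeval hζ.toInteger fu = (u : 𝓞 K) := aeval_rep hζ _
  have agu : aeval hζ.toInteger gu = ((u⁻¹ : (𝓞 K)ˣ) : 𝓞 K) := aeval_rep hζ _
  have afv : aeval hζ.toInteger fv = (v : 𝓞 K) := aeval_rep hζ _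
  have agv : aeval hζ.toInteger gv = ((v⁻¹ : (𝓞 K)ˣ) : 𝓞 K) := aeval_rep hζ _
  have hu : (u : 𝓞 K) * ((u⁻¹ : (𝓞 K)ˣ) : 𝓞 K) = 1 := u.mul_inv
  have hv : (v : 𝓞 K) * ((v⁻¹ : (𝓞 K)ˣ) : 𝓞 K) = 1 := v.mul_inv
  rw [logd_eq hζ hk (f := fu * fv) (g := gu * gv) (by simp [afu, afv])
    (by simp [agu, agv, mul_comm])]
  have e1 : eul (fu * fv) * (gu * gv) = eul fu * (gu * (fv * gv)) + eul fv * (gv * (fu * gu)) := by
    rw [eul_mul]; ring
  rw [e1, map_add, map_add]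
  congr 1
  · exact mom_eul_mul_congr hζ rfl (by rw [map_mul, map_mul, afv, agv, hv, mul_one]) hk
  · exact mom_eul_mul_congr hζ rfl (by rw [map_mul, map_mul, afu, agu, hu, mul_one]) hk

/-- The functional as a homomorphism. -/
noncomputable def logdHom (k : ℕ) (hk : k + 3 ≤ p) : (𝓞 K)ˣ →* Multiplicative (ZMod p) where
  toFun u := Multiplicative.ofAdd (logd hζ k u)
  map_one' := by
    have h := logd_mul hζ hk 1 1
    rw [mul_one, left_eq_add] at h
    rw [h]; rfl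
  map_mul' u v := by rw [logd_mul hζ hk]; rfl

lemma logd_eq_zero_of_dvd {k : ℕ} (hk : k + 3 ≤ p) {u : (𝓞 K)ˣ} {n : ℤ}
    (h : (p : 𝓞 K) ∣ (u : 𝓞 K) - n) : logd hζ k u = 0 := by
  obtain ⟨t, ht⟩ := h
  rw [logd_eq hζ hk (f := C n + (p : ℤ[X]) * rep hζ t) (g := rep hζ ((u⁻¹ : (𝓞 K)ˣ) : 𝓞 K))
    (by simp only [map_add, aeval_C, map_mul, map_natCast, aeval_rep, ← ht]; simp)
    (aeval_rep hζ _)]
  rw [map_mul, show redp p (eul (C n + (p : ℤ[X]) * rep hζ t)) =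
    eul (redp p (C n + (p : ℤ[X]) * rep hζ t)) from map_eul _ _]
  have : redp p (C n + (p : ℤ[X]) * rep hζ t) = C (n : ZMod p) := by
    simp
  rw [this]
  simp [eul_apply]

end cyclotomic

end Fermat.Agent.Kummer
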